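import Mathlib
import Fermat.Agent.MUL.Orig.S05.H5.RedB
import Fermat.Agent.MUL.Orig.Lib.MultRed.Normal

/-!
# MultRed / Core: valuation computations near a node (owner: helper4)

Nodal normal form `y² + a₁ x y = x³ + a₂ x² + a₆` (`a₃ = a₄ = 0`, `v a₆ < 1`), with the tangent
directions `α, β` at the node (`α + β = -a₁`, `α β = -a₂`, `v (α - β) = 1`).
For a point `(x, y)` put `s = y - α x`, `t = y - β x`; then `s t = x³ + a₆`, `s + t = F_y`,
`s - t = (β - α) x`.  A point *reduces to the node* iff `v x < 1` and `v y < 1`.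

* `not_isNodePt_add_self`: if `v s = v t` then `2 P` does not reduce to the node;
* `not_isNodePt_sub`: if `v s₁ = v s₂ ≠ v t₁ = v t₂` then `P₂ - P₁` does not reduce to the node;
* `isNodePt_of_singular`: an integral point with singular reduction reduces to the node.
-/

set_option autoImplicit false

namespace Fermat.Agent.MultRed

open WeierstrassCurve WeierstrassCurve.Affine S05H5 S05H65

variable {K : Type*} [Field K] {Γ₀ : Type*} [LinearOrderedCommGroupWithZero Γ₀]

/-- the nodal normal form, with the two tangent directions `α`, `β` at the node -/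
structure NodalNF (v : Valuation K Γ₀) (W : Affine K) (α β : K) : Prop where
  a₃ : W.a₃ = 0
  a₄ : W.a₄ = 0
  va₆ : v W.a₆ < 1
  hsum : α + β = -W.a₁
  hprod : α * β = -W.a₂
  vα : v α ≤ 1
  vβ : v β ≤ 1
  vαβ : v (α - β) = 1

/-- the point reduces to the node -/
def IsNodePt (v : Valuation K Γ₀) {W : Affine K} : W.Point → Prop
  | .zero => False
  | .some x y _ => v x < 1 ∧ v y < 1

section

variable {v : Valuation K Γ₀} {W : Affine K} {α β : K}

lemma NodalNF.va₁ (nf : NodalNF v W α β) : v W.a₁ ≤ 1 := by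
  have : W.a₁ = -(α + β) := by rw [nf.hsum]; ring
  rw [this, Valuation.map_neg]
  exact vle_add v nf.vα nf.vβ

lemma NodalNF.va₂ (nf : NodalNF v W α β) : v W.a₂ ≤ 1 := by
  have : W.a₂ = -(α * β) := by rw [nf.hprod]; ring
  rw [this, Valuation.map_neg]
  exact vle_mul v nf.vα nf.vβ

lemma NodalNF.vβα (nf : NodalNF v W α β) : v (β - α) = 1 := by
  rw [Valuation.map_sub_swap]; exact nf.vαβ

/-- the equation in the coordinates `s`, `t` -/
lemma NodalNF.st_eq (nf : NodalNF v W α β) {x y : K} (h : W.Equation x y) :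
    (y - α * x) * (y - β * x) = x ^ 3 + W.a₆ := by
  rw [Affine.equation_iff] at h
  have h1 := nf.hsum
  have h2 := nf.hprod
  have h3 := nf.a₃
  have h4 := nf.a₄
  have e : (y - α * x) * (y - β * x) = y ^ 2 - (α + β) * x * y + (α * β) * x ^ 2 := by ring
  rw [e, h1, h2]
  linear_combination h - y * h3 + x * h4

lemma NodalNF.v_x_le (nf : NodalNF v W α β) {x y : K} {m : Γ₀}
    (hs : v (y - α * x) ≤ m) (ht : v (y - β * x) ≤ m) : v x ≤ m := by
  have e : x = (β - α)⁻¹ * ((y - α * x) - (y - β * x)) := by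
    have hne : β - α ≠ 0 := by
      intro h0
      have := nf.vβα
      rw [h0, map_zero] at this
      exact zero_ne_one this
    field_simp
    ring
  rw [e, map_mul, map_inv₀, nf.vβα, inv_one, one_mul]
  exact le_trans (Valuation.map_sub _ _ _) (max_le hs ht)

lemma v_s_lt (hα : v α ≤ 1) {x y : K} (hx : v x < 1) (hy : v y < 1) : v (y - α * x) < 1 :=
  vlt_sub v hy (vlt_mul_left v hα hx)

end

section Double

variable [DecidableEq K] {v : Valuation K Γ₀} {W : Affine K} {α β : K}

/-- (C1): a node point with `v s = v t` has `2 P` off the node -/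
theorem not_isNodePt_add_self (nf : NodalNF v W α β) {x y : K} (h : W.Nonsingular x y)
    (hx : v x < 1) (hy : v y < 1) (hst : v (y - α * x) = v (y - β * x)) :
    ¬ IsNodePt v (Point.some x y h + Point.some x y h) := by
  by_cases hY : y = W.negY x y
  · rw [Point.add_of_Y_eq rfl hY]
    exact fun h => h
  · rw [Point.add_of_Y_ne hY]
    intro hnode
    have hX : v (W.addX x x (W.slope x x y y)) < 1 := hnode.1
    rw [Affine.slope_of_Y_ne rfl hY] at hX
    set s := y - α * x with hs
    set t := y - β * x with ht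
    set m := v s with hm
    have hden : y - W.negY x y = s + t := by
      simp only [Affine.negY, hs, ht]
      have h1 := nf.hsum
      have h3 := nf.a₃
      linear_combination x * h1 + h3
    have hden0 : s + t ≠ 0 := by
      rw [← hden]; exact sub_ne_zero.mpr hY
    have hm1 : m < 1 := v_s_lt nf.vα hx hy
    have hm0 : m ≠ 0 := by
      intro h0
      have hs0 : s = 0 := by
        rw [hm] at h0; exact (map_eq_zero v).mp h0
      have ht0 : t = 0 := by
        have : v t = 0 := by rw [← hst]; exact h0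
        exact (map_eq_zero v).mp this
      exact hden0 (by rw [hs0, ht0, add_zero])
    have hmpos : 0 < m := lt_of_le_of_ne zero_le (Ne.symm hm0)
    have hvx : v x ≤ m := nf.v_x_le (le_refl _) (le_of_eq hst.symm)
    have hv3x : v (3 * x ^ 2) < m := by
      rw [map_mul, map_pow]
      have h3 : v (3 : K) ≤ 1 := vle_ofNat v 3
      have hx2 : v x ^ 2 < m := by
        rw [pow_two]
        calc v x * v x ≤ m * v x := by gcongr
          _ < m * 1 := by
            exact mul_lt_mul_of_pos_left hx hmpos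
          _ = m := mul_one m
      calc v 3 * v x ^ 2 ≤ 1 * v x ^ 2 := by gcongr
        _ = v x ^ 2 := one_mul _
        _ < m := hx2
    have hnum₁ : v (3 * x ^ 2 + (β - α) * s) = m := by
      have : v ((β - α) * s) = m := by rw [map_mul, nf.vβα, one_mul]
      rw [Valuation.map_add_eq_of_lt_right _ (by rw [this]; exact hv3x), this]
    have hnum₂ : v (3 * x ^ 2 - (β - α) * t) = m := by
      have : v ((β - α) * t) = m := by rw [map_mul, nf.vβα, one_mul, ← hst]
      rw [sub_eq_add_neg, Valuation.map_add_eq_of_lt_right _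
        (by rw [Valuation.map_neg, this]; exact hv3x), Valuation.map_neg, this]
    have hvden : v (s + t) ≤ m :=
      le_trans (Valuation.map_add _ _ _) (max_le (le_refl _) (le_of_eq hst.symm))
    have hvden0 : 0 < v (s + t) := by
      rw [Valuation.pos_iff]; exact hden0
    -- the formula
    have key : W.addX x x ((3 * x ^ 2 + 2 * W.a₂ * x + W.a₄ - W.a₁ * y) / (y - W.negY x y))
        = (3 * x ^ 2 + (β - α) * s) * (3 * x ^ 2 - (β - α) * t) / (s + t) ^ 2 - 2 * x := by
      rw [hden]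
      simp only [Affine.addX]
      have h1 := nf.hsum
      have h2 := nf.hprod
      have h4 := nf.a₄
      have e1 : 3 * x ^ 2 + 2 * W.a₂ * x + W.a₄ - W.a₁ * y
          = 3 * x ^ 2 + (β - α) * s + α * (s + t) := by
        simp only [hs, ht]
        linear_combination (2 * x) * h2 + h4 - y * h1
      have e2 : 3 * x ^ 2 + 2 * W.a₂ * x + W.a₄ - W.a₁ * y
          = 3 * x ^ 2 - (β - α) * t + β * (s + t) := by
        simp only [hs, ht]
        linear_combination (2 * x) * h2 + h4 - y * h1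
      have e3 : ∀ L : K, L ^ 2 + W.a₁ * L - W.a₂ - x - x = (L - α) * (L - β) - 2 * x := by
        intro L
        linear_combination L * h1 - h2
      rw [e3]
      congr 1
      have hA : (3 * x ^ 2 + 2 * W.a₂ * x + W.a₄ - W.a₁ * y) / (s + t) - α
          = (3 * x ^ 2 + (β - α) * s) / (s + t) := by
        rw [e1]; field_simp; ring
      have hB : (3 * x ^ 2 + 2 * W.a₂ * x + W.a₄ - W.a₁ * y) / (s + t) - β
          = (3 * x ^ 2 - (β - α) * t) / (s + t) := by
        rw [e2]; field_simp; ring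
      rw [hA, hB]
      field_simp
    rw [key] at hX
    have hbig : 1 ≤ v ((3 * x ^ 2 + (β - α) * s) * (3 * x ^ 2 - (β - α) * t) / (s + t) ^ 2) := by
      rw [map_div₀, map_mul, map_pow, hnum₁, hnum₂, le_div_iff₀ (pow_pos hvden0 2), one_mul,
        pow_two]
      exact mul_le_mul' hvden hvden
    have h2x : v (2 * x) < 1 := vlt_mul_left v (vle_ofNat v 2) hx
    have : v ((3 * x ^ 2 + (β - α) * s) * (3 * x ^ 2 - (β - α) * t) / (s + t) ^ 2 - 2 * x)
        = v ((3 * x ^ 2 + (β - α) * s) * (3 * x ^ 2 - (β - α) * t) / (s + t) ^ 2) := by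
      rw [sub_eq_add_neg]
      apply Valuation.map_add_eq_of_lt_left
      rw [Valuation.map_neg]
      exact lt_of_lt_of_le h2x hbig
    rw [this] at hX
    exact absurd hX (not_lt.mpr hbig)

/-- (C2): two node points with `v s₁ = v s₂ ≠ v t₁ = v t₂` have `P₂ - P₁` off the node -/
theorem not_isNodePt_sub (nf : NodalNF v W α β) {x₁ y₁ x₂ y₂ : K} (h₁ : W.Nonsingular x₁ y₁)
    (h₂ : W.Nonsingular x₂ y₂) (hx₁ : v x₁ < 1) (hx₂ : v x₂ < 1)
    (hs : v (y₁ - α * x₁) = v (y₂ - α * x₂)) (ht : v (y₁ - β * x₁) = v (y₂ - β * x₂))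
    (hne : v (y₁ - α * x₁) ≠ v (y₁ - β * x₁)) :
    ¬ IsNodePt v (Point.some x₂ y₂ h₂ - Point.some x₁ y₁ h₁) := by
  rw [sub_eq_add_neg, Point.neg_some]
  have h1 := nf.hsum
  have h2 := nf.hprod
  have h3 := nf.a₃
  -- `s (-P₁) = - t₁`
  have hsneg : W.negY x₁ y₁ - α * x₁ = -(y₁ - β * x₁) := by
    simp only [Affine.negY]
    linear_combination (-x₁) * h1 - h3
  by_cases hxeq : x₂ = x₁
  · by_cases hyeq : y₂ = W.negY x₁ (W.negY x₁ y₁)
    · rw [Point.add_of_Y_eq hxeq hyeq]
      exact fun h => h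
    · exfalso
      rw [Affine.negY_negY] at hyeq
      have hy : y₂ = W.negY x₁ y₁ := by
        rcases Affine.Y_eq_of_X_eq h₂.1 h₁.1 hxeq with h | h
        · exact absurd h hyeq
        · exact h
      apply hne
      rw [hs, hy, hxeq, hsneg, Valuation.map_neg]
  · rw [Point.add_of_X_ne hxeq]
    intro hnode
    have hX : v (W.addX x₂ x₁ (W.slope x₂ x₁ y₂ (W.negY x₁ y₁))) < 1 := hnode.1
    rw [Affine.slope_of_X_ne hxeq] at hX
    set s₁ := y₁ - α * x₁ with hs₁
    set t₁ := y₁ - β * x₁ with ht₁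
    set s₂ := y₂ - α * x₂ with hs₂
    set t₂ := y₂ - β * x₂ with ht₂
    have hd : x₂ - x₁ ≠ 0 := sub_ne_zero.mpr hxeq
    -- `U = s₂ + t₁`, `V = t₂ + s₁`
    have hU : y₂ - W.negY x₁ y₁ - α * (x₂ - x₁) = s₂ + t₁ := by
      simp only [Affine.negY, hs₂, ht₁]
      linear_combination x₁ * h1 + h3
    have hV : y₂ - W.negY x₁ y₁ - β * (x₂ - x₁) = t₂ + s₁ := by
      simp only [Affine.negY, ht₂, hs₁]
      linear_combination x₁ * h1 + h3
    have hUV : (s₂ + t₁) - (t₂ + s₁) = (β - α) * (x₂ - x₁) := by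
      simp only [hs₁, ht₁, hs₂, ht₂]; ring
    -- the common valuation
    have hvU : v (s₂ + t₁) = max (v s₁) (v t₁) := by
      rcases lt_or_gt_of_ne hne with hlt | hgt
      · rw [Valuation.map_add_eq_of_lt_right _ (by rw [← hs]; exact hlt), max_eq_right hlt.le]
      · rw [Valuation.map_add_eq_of_lt_left _ (by rw [← hs]; exact hgt), ← hs,
          max_eq_left hgt.le]
    have hvV : v (t₂ + s₁) = max (v s₁) (v t₁) := by
      rcases lt_or_gt_of_ne hne with hlt | hgt
      · rw [Valuation.map_add_eq_of_lt_left _ (by rw [← ht]; exact hlt), ← ht,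
          max_eq_right hlt.le]
      · rw [Valuation.map_add_eq_of_lt_right _ (by rw [← ht]; exact hgt), max_eq_left hgt.le]
    set μ := max (v s₁) (v t₁) with hμ
    have hvd : v (x₂ - x₁) ≤ μ := by
      have : v ((β - α) * (x₂ - x₁)) ≤ μ := by
        rw [← hUV]
        exact le_trans (Valuation.map_sub _ _ _) (max_le hvU.le hvV.le)
      rwa [map_mul, nf.vβα, one_mul] at this
    have hvd0 : 0 < v (x₂ - x₁) := by
      rw [Valuation.pos_iff]; exact hd
    have key : W.addX x₂ x₁ ((y₂ - W.negY x₁ y₁) / (x₂ - x₁))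
        = (s₂ + t₁) * (t₂ + s₁) / (x₂ - x₁) ^ 2 - (x₂ + x₁) := by
      simp only [Affine.addX]
      have e3 : ∀ L : K, L ^ 2 + W.a₁ * L - W.a₂ - x₂ - x₁ = (L - α) * (L - β) - (x₂ + x₁) := by
        intro L
        linear_combination L * h1 - h2
      rw [e3]
      congr 1
      have hA : (y₂ - W.negY x₁ y₁) / (x₂ - x₁) - α = (s₂ + t₁) / (x₂ - x₁) := by
        rw [← hU]; field_simp
      have hB : (y₂ - W.negY x₁ y₁) / (x₂ - x₁) - β = (t₂ + s₁) / (x₂ - x₁) := by
        rw [← hV]; field_simp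
      rw [hA, hB]
      field_simp
    rw [key] at hX
    have hbig : 1 ≤ v ((s₂ + t₁) * (t₂ + s₁) / (x₂ - x₁) ^ 2) := by
      rw [map_div₀, map_mul, map_pow, hvU, hvV, le_div_iff₀ (pow_pos hvd0 2), one_mul, pow_two]
      exact mul_le_mul' hvd hvd
    have hsmall : v (x₂ + x₁) < 1 := vlt_add v hx₂ hx₁
    have : v ((s₂ + t₁) * (t₂ + s₁) / (x₂ - x₁) ^ 2 - (x₂ + x₁))
        = v ((s₂ + t₁) * (t₂ + s₁) / (x₂ - x₁) ^ 2) := by
      rw [sub_eq_add_neg]
      apply Valuation.map_add_eq_of_lt_left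
      rw [Valuation.map_neg]
      exact lt_of_lt_of_le hsmall hbig
    rw [this] at hX
    exact absurd hX (not_lt.mpr hbig)

end Double

section Sing

variable {v : Valuation K Γ₀} {W : Affine K} {α β : K}

theorem sing_aux1 (s t x D α β Fx Fy : K) (hD : D = β - α) (hx : D * x = s - t)
    (hFx : Fx = -3 * x ^ 2 - α * t - β * s) (hFy : Fy = s + t) :
    s * (12 * s + D ^ 3) = -D ^ 2 * Fx - D ^ 2 * α * Fy + 3 * Fy * (4 * s - Fy) := by
  subst hFx hFy
  linear_combination (-3 * (D * x + (s - t))) * hx + (D ^ 2 * s) * hD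

theorem sing_aux2 (s t x D a₆ Fy : K) (hx : D * x = s - t) (hst : s * t = x ^ 3 + a₆)
    (hFy : Fy = s + t) :
    s ^ 2 * (8 * s + D ^ 3) = Fy * (D ^ 3 * s + 12 * s ^ 2 - 6 * s * Fy + Fy ^ 2) - D ^ 3 * a₆ := by
  subst hFy
  linear_combination (-((D * x) ^ 2 + D * x * (s - t) + (s - t) ^ 2)) * hx - D ^ 3 * hst

/-- an integral point whose reduction is singular reduces to the node -/
theorem isNode_of_singular (nf : NodalNF v W α β) {x y : K} (h : W.Equation x y)
    (hx : v x ≤ 1) (hy : v y ≤ 1)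
    (hFx : v (W.a₁ * y - (3 * x ^ 2 + 2 * W.a₂ * x + W.a₄)) < 1)
    (hFy : v (2 * y + W.a₁ * x + W.a₃) < 1) : v x < 1 ∧ v y < 1 := by
  have h1 := nf.hsum
  have h2 := nf.hprod
  have h3 := nf.a₃
  have h4 := nf.a₄
  have hsint : v (y - α * x) ≤ 1 := vle_sub v hy (vle_mul v nf.vα hx)
  have hFy' : 2 * y + W.a₁ * x + W.a₃ = (y - α * x) + (y - β * x) := by
    linear_combination x * h1 + h3
  have hFx' : W.a₁ * y - (3 * x ^ 2 + 2 * W.a₂ * x + W.a₄)
      = -3 * x ^ 2 - α * (y - β * x) - β * (y - α * x) := by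
    linear_combination y * h1 - 2 * x * h2 - h4
  -- it suffices that `s` is not a unit
  suffices hsm : v (y - α * x) < 1 by
    have htm : v (y - β * x) < 1 := by
      have : y - β * x = (2 * y + W.a₁ * x + W.a₃) - (y - α * x) := by rw [hFy']; ring
      rw [this]; exact vlt_sub v hFy hsm
    have hxm : v x < 1 := by
      have hx' := nf.v_x_le (x := x) (y := y) (m := max (v (y - α * x)) (v (y - β * x)))
        (le_max_left _ _) (le_max_right _ _)
      exact lt_of_le_of_lt hx' (max_lt hsm htm)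
    refine ⟨hxm, ?_⟩
    have : y = (y - α * x) + α * x := by ring
    rw [this]
    exact vlt_add v hsm (vlt_mul_left v nf.vα hxm)
  by_contra hcon
  have hs1 : v (y - α * x) = 1 := le_antisymm hsint (not_lt.mp hcon)
  have hD1 : v (β - α) = 1 := nf.vβα
  have v2 : v (2 : K) ≤ 1 := vle_ofNat v 2
  have v3 : v (3 : K) ≤ 1 := vle_ofNat v 3
  have v4 : v (4 : K) ≤ 1 := vle_ofNat v 4
  have v6 : v (6 : K) ≤ 1 := vle_ofNat v 6
  have v8 : v (8 : K) ≤ 1 := vle_ofNat v 8
  have v12 : v (12 : K) ≤ 1 := vle_ofNat v 12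
  have hst := nf.st_eq h
  have eDx : (β - α) * x = (y - α * x) - (y - β * x) := by ring
  have e1 := sing_aux1 (y - α * x) (y - β * x) x (β - α) α β
    (W.a₁ * y - (3 * x ^ 2 + 2 * W.a₂ * x + W.a₄)) (2 * y + W.a₁ * x + W.a₃) rfl eDx hFx' hFy'
  have e2 := sing_aux2 (y - α * x) (y - β * x) x (β - α) W.a₆ (2 * y + W.a₁ * x + W.a₃)
    eDx hst hFy'
  set s := y - α * x with hs
  set D := β - α with hD
  set Fy := 2 * y + W.a₁ * x + W.a₃ with hFydef
  set Fx := W.a₁ * y - (3 * x ^ 2 + 2 * W.a₂ * x + W.a₄) with hFxdef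
  have hFyint : v Fy ≤ 1 := hFy.le
  have hDp : ∀ n : ℕ, v (D ^ n) ≤ 1 := fun n => vle_pow v hD1.le n
  -- `12 s + D³` is small
  have hA : v (12 * s + D ^ 3) < 1 := by
    have : v (s * (12 * s + D ^ 3)) < 1 := by
      rw [e1]
      refine vlt_add v (vlt_sub v ?_ ?_) ?_
      · exact vlt_mul_left v (by rw [Valuation.map_neg]; exact hDp 2) hFx
      · exact vlt_mul_left v (vle_mul v (hDp 2) nf.vα) hFy
      · exact vlt_mul_right v (vlt_mul_left v v3 hFy)
          (vle_sub v (vle_mul v v4 hsint) hFyint)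
    rwa [map_mul, hs1, one_mul] at this
  -- `8 s + D³` is small
  have hB : v (8 * s + D ^ 3) < 1 := by
    have : v (s ^ 2 * (8 * s + D ^ 3)) < 1 := by
      rw [e2]
      refine vlt_sub v ?_ ?_
      · refine vlt_mul_right v hFy ?_
        refine vle_add v (vle_sub v (vle_add v (vle_mul v (hDp 3) hsint) ?_) ?_) (vle_pow v hFyint 2)
        · exact vle_mul v v12 (vle_pow v hsint 2)
        · exact vle_mul v (vle_mul v v6 hsint) hFyint
      · exact vlt_mul_left v (hDp 3) nf.va₆
    rwa [map_mul, map_pow, hs1, one_pow, one_mul] at this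
  have h4s : v (4 * s) < 1 := by
    have : 4 * s = (12 * s + D ^ 3) - (8 * s + D ^ 3) := by ring
    rw [this]; exact vlt_sub v hA hB
  rw [map_mul, hs1, mul_one] at h4s
  have h2lt : v (2 : K) < 1 := by
    by_contra h2
    have h2' : v (2 : K) = 1 := le_antisymm v2 (not_lt.mp h2)
    have : v (4 : K) = 1 := by
      have e : (4 : K) = 2 * 2 := by norm_num
      rw [e, map_mul, h2', one_mul]
    rw [this] at h4s
    exact lt_irrefl _ h4s
  have h8s : v (8 * s) < 1 := by
    have e : (8 : K) * s = 2 * (4 * s) := by ring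
    rw [e]
    exact vlt_mul_right v h2lt (vle_mul v v4 hsint)
  have hD3 : v (D ^ 3) < 1 := by
    have : D ^ 3 = (8 * s + D ^ 3) - 8 * s := by ring
    rw [this]; exact vlt_sub v hB h8s
  rw [map_pow, hD1, one_pow] at hD3
  exact lt_irrefl _ hD3

/-- conversely a node point is integral with singular reduction -/
theorem singular_of_isNode (nf : NodalNF v W α β) {x y : K} (hx : v x < 1) (hy : v y < 1) :
    v (W.a₁ * y - (3 * x ^ 2 + 2 * W.a₂ * x + W.a₄)) < 1 ∧ v (2 * y + W.a₁ * x + W.a₃) < 1 := by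
  constructor
  · refine vlt_sub v (vlt_mul_left v nf.va₁ hy) ?_
    rw [nf.a₄, add_zero]
    refine vlt_add v ?_ ?_
    · exact vlt_mul_left v (vle_ofNat v 3) (by rw [pow_two]; exact vlt_mul_left v hx.le hx)
    · exact vlt_mul_left v (vle_mul v (vle_ofNat v 2) nf.va₂) hx
  · rw [nf.a₃, add_zero]
    exact vlt_add v (vlt_mul_left v (vle_ofNat v 2) hy) (vlt_mul_left v nf.va₁ hx)

end Sing

end Fermat.Agent.MultRed
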