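/-
MultRed MR5 piece W (helper75): the chord identity for a cubic `y² + a₁ x y = x³ + a₂ x² + a₆`
with tangent directions `α, β` (`α + β = -a₁`, `α β = -a₂`), and the character `w = s / t`
(`s = y - α x`, `t = y - β x`) of the nodal cubic (`a₆ = 0`, `α ≠ β`).

* `chord_s`, `chord_t`: for `P₁ + P₂ = P₃` (affine), with `ℓ` the slope and `ν = y₁ - ℓ x₁`:
  `s₁ s₂ t₃ = (ℓ - α)³ a₆ - ν³` and `t₁ t₂ s₃ = (ℓ - β)³ a₆ - ν³`.
* `nodeChar`: on a nodal cubic, `w : W.Point → F`, `w (P + Q) = w P * w Q`, `w P = 1 ↔ P = 0`.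
* `NodeCubic.eq_zero_of_pow_smul`: in characteristic `p` a nodal cubic has no `p`-power torsion.
-/
import Mathlib
import Fermat.Agent.MUL.S36.G.ModularGraphInst

set_option autoImplicit false
set_option linter.unusedSectionVars false

namespace Fermat.Agent.MultRed

open WeierstrassCurve WeierstrassCurve.Affine Polynomial

variable {F : Type*} [Field F]

/-- the cubic is `y² + a₁ x y = x³ + a₂ x² + a₆` and `α`, `β` are the roots of `T² + a₁ T - a₂` -/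
structure TangentForm (W : Affine F) (α β : F) : Prop where
  a₃ : W.a₃ = 0
  a₄ : W.a₄ = 0
  hsum : α + β = -W.a₁
  hprod : α * β = -W.a₂

section Chord

variable [DecidableEq F] {W : Affine F} {α β : F}

/-- the second point lies on the line through the first point with the slope -/
lemma line_through {x₁ x₂ y₁ y₂ : F} (h₁ : W.Equation x₁ y₁) (h₂ : W.Equation x₂ y₂)
    (hxy : ¬(x₁ = x₂ ∧ y₁ = W.negY x₂ y₂)) :
    y₂ = W.slope x₁ x₂ y₁ y₂ * (x₂ - x₁) + y₁ := by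
  by_cases hx : x₁ = x₂
  · have hy : y₁ ≠ W.negY x₂ y₂ := fun h => hxy ⟨hx, h⟩
    have := Y_eq_of_Y_ne h₁ h₂ hx hy
    rw [hx, this]; ring
  · rw [slope_of_X_ne hx]
    have : x₁ - x₂ ≠ 0 := sub_ne_zero.mpr hx
    field_simp
    ring

/-- the elementary symmetric functions of the `x`-coordinates on a chord -/
lemma chord_esymm {x₁ x₂ y₁ y₂ : F} (h₁ : W.Equation x₁ y₁) (h₂ : W.Equation x₂ y₂)
    (hxy : ¬(x₁ = x₂ ∧ y₁ = W.negY x₂ y₂)) :
    (x₁ * x₂ + x₁ * W.addX x₁ x₂ (W.slope x₁ x₂ y₁ y₂)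
        + x₂ * W.addX x₁ x₂ (W.slope x₁ x₂ y₁ y₂)
        = 2 * x₁ * W.slope x₁ x₂ y₁ y₂ ^ 2
          + (W.a₁ * x₁ - 2 * y₁ - W.a₃) * W.slope x₁ x₂ y₁ y₂ + (-W.a₁ * y₁ + W.a₄)) ∧
      (x₁ * x₂ * W.addX x₁ x₂ (W.slope x₁ x₂ y₁ y₂)
        = x₁ ^ 2 * W.slope x₁ x₂ y₁ y₂ ^ 2 - (2 * x₁ * y₁ + W.a₃ * x₁) * W.slope x₁ x₂ y₁ y₂
          + (y₁ ^ 2 + W.a₃ * y₁ - W.a₆)) := by
  have h := addPolynomial_slope h₁ h₂ hxy
  rw [addPolynomial_eq, neg_inj, Cubic.prod_X_sub_C_eq] at h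
  have hc := Cubic.c_of_eq h
  have hd := Cubic.d_of_eq h
  simp only at hc hd
  constructor
  · exact hc.symm
  · linear_combination hd

/-- **chord identity**, first form: the product of `s = y - α x` over the three points of a
chord is `ν³ - (ℓ - α)³ a₆`. -/
theorem chord_prod (tf : TangentForm W α β) {x₁ x₂ y₁ y₂ : F} (h₁ : W.Equation x₁ y₁)
    (h₂ : W.Equation x₂ y₂) (hxy : ¬(x₁ = x₂ ∧ y₁ = W.negY x₂ y₂)) :
    (y₁ - α * x₁) * (y₂ - α * x₂) *
        (W.negAddY x₁ x₂ y₁ (W.slope x₁ x₂ y₁ y₂) - α * W.addX x₁ x₂ (W.slope x₁ x₂ y₁ y₂))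
      = (y₁ - W.slope x₁ x₂ y₁ y₂ * x₁) ^ 3 - (W.slope x₁ x₂ y₁ y₂ - α) ^ 3 * W.a₆ := by
  obtain ⟨hc, hd⟩ := chord_esymm h₁ h₂ hxy
  have hl := line_through h₁ h₂ hxy
  set ℓ := W.slope x₁ x₂ y₁ y₂ with hℓ
  have hx₃ : W.addX x₁ x₂ ℓ = ℓ ^ 2 + W.a₁ * ℓ - W.a₂ - x₁ - x₂ := rfl
  set x₃ := W.addX x₁ x₂ ℓ with hx₃def
  have hy₃ : W.negAddY x₁ x₂ y₁ ℓ = ℓ * (x₃ - x₁) + y₁ := rfl
  rw [hy₃]
  have h3 := tf.a₃
  have h4 := tf.a₄
  have hs := tf.hsum
  have hp := tf.hprod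
  rw [h3, h4] at hc
  rw [h3] at hd
  have ha₁ : W.a₁ = -(α + β) := by rw [hs]; ring
  have ha₂ : W.a₂ = -(α * β) := by rw [hp]; ring
  rw [ha₁] at hc hx₃
  rw [ha₂] at hx₃
  rw [hl]
  have e1 : x₁ + x₂ + x₃ = (ℓ - α) * (ℓ - β) := by rw [hx₃]; ring
  -- polynomial identity in the elementary symmetric functions
  have key : ((ℓ - α) * x₁ + (y₁ - ℓ * x₁)) * ((ℓ - α) * x₂ + (y₁ - ℓ * x₁))
        * ((ℓ - α) * x₃ + (y₁ - ℓ * x₁))
      = (ℓ - α) ^ 3 * (x₁ * x₂ * x₃) + (ℓ - α) ^ 2 * (y₁ - ℓ * x₁) * (x₁ * x₂ + x₁ * x₃ + x₂ * x₃)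
        + (ℓ - α) * (y₁ - ℓ * x₁) ^ 2 * (x₁ + x₂ + x₃) + (y₁ - ℓ * x₁) ^ 3 := by ring
  have lhs : (y₁ - α * x₁) * (ℓ * (x₂ - x₁) + y₁ - α * x₂) * (ℓ * (x₃ - x₁) + y₁ - α * x₃)
      = ((ℓ - α) * x₁ + (y₁ - ℓ * x₁)) * ((ℓ - α) * x₂ + (y₁ - ℓ * x₁))
        * ((ℓ - α) * x₃ + (y₁ - ℓ * x₁)) := by ring
  rw [lhs, key, hd, hc, e1]
  ring

/-- the same with the roles of `α` and `β` exchanged -/
lemma TangentForm.symm (tf : TangentForm W α β) : TangentForm W β α where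
  a₃ := tf.a₃
  a₄ := tf.a₄
  hsum := by rw [add_comm]; exact tf.hsum
  hprod := by rw [mul_comm]; exact tf.hprod

/-- `s (P₁ + P₂) = - t (third point of the chord)` -/
lemma addY_sub_mul (tf : TangentForm W α β) (x₁ x₂ y₁ ℓ : F) :
    W.addY x₁ x₂ y₁ ℓ - α * W.addX x₁ x₂ ℓ = -(W.negAddY x₁ x₂ y₁ ℓ - β * W.addX x₁ x₂ ℓ) := by
  have ha₁ : W.a₁ = -(α + β) := by rw [tf.hsum]; ring
  rw [addY, negY, tf.a₃, ha₁]
  ring

/-- **chord identity** for the sum: `s₁ s₂ t₃ = (ℓ - α)³ a₆ - ν³`. -/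
theorem chord_s (tf : TangentForm W α β) {x₁ x₂ y₁ y₂ : F} (h₁ : W.Equation x₁ y₁)
    (h₂ : W.Equation x₂ y₂) (hxy : ¬(x₁ = x₂ ∧ y₁ = W.negY x₂ y₂)) :
    (y₁ - α * x₁) * (y₂ - α * x₂) *
        (W.addY x₁ x₂ y₁ (W.slope x₁ x₂ y₁ y₂) - β * W.addX x₁ x₂ (W.slope x₁ x₂ y₁ y₂))
      = (W.slope x₁ x₂ y₁ y₂ - α) ^ 3 * W.a₆ - (y₁ - W.slope x₁ x₂ y₁ y₂ * x₁) ^ 3 := by
  rw [addY_sub_mul tf.symm, mul_neg, chord_prod tf h₁ h₂ hxy]
  ring

/-- **chord identity** for the sum: `t₁ t₂ s₃ = (ℓ - β)³ a₆ - ν³`. -/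
theorem chord_t (tf : TangentForm W α β) {x₁ x₂ y₁ y₂ : F} (h₁ : W.Equation x₁ y₁)
    (h₂ : W.Equation x₂ y₂) (hxy : ¬(x₁ = x₂ ∧ y₁ = W.negY x₂ y₂)) :
    (y₁ - β * x₁) * (y₂ - β * x₂) *
        (W.addY x₁ x₂ y₁ (W.slope x₁ x₂ y₁ y₂) - α * W.addX x₁ x₂ (W.slope x₁ x₂ y₁ y₂))
      = (W.slope x₁ x₂ y₁ y₂ - β) ^ 3 * W.a₆ - (y₁ - W.slope x₁ x₂ y₁ y₂ * x₁) ^ 3 :=
  chord_s tf.symm h₁ h₂ hxy

/-- `s (-P) = - t (P)` -/
lemma negY_sub_mul (tf : TangentForm W α β) (x y : F) :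
    W.negY x y - α * x = -(y - β * x) := by
  have ha₁ : W.a₁ = -(α + β) := by rw [tf.hsum]; ring
  rw [negY, tf.a₃, ha₁]
  ring

/-- the equation in the coordinates `s`, `t` -/
lemma TangentForm.st_eq (tf : TangentForm W α β) {x y : F} (h : W.Equation x y) :
    (y - α * x) * (y - β * x) = x ^ 3 + W.a₆ := by
  rw [Affine.equation_iff] at h
  have h1 := tf.hsum
  have h2 := tf.hprod
  have h3 := tf.a₃
  have h4 := tf.a₄
  have e : (y - α * x) * (y - β * x) = y ^ 2 - (α + β) * x * y + (α * β) * x ^ 2 := by ring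
  rw [e, h1, h2]
  linear_combination h - y * h3 + x * h4

end Chord

/-! ## The nodal cubic -/

/-- the nodal cubic `y² + a₁ x y = x³ + a₂ x²` with distinct tangent directions `α ≠ β` -/
structure NodeCubic (W : Affine F) (α β : F) : Prop extends TangentForm W α β where
  a₆ : W.a₆ = 0
  hne : α ≠ β

section Node

variable [DecidableEq F] {W : Affine F} {α β : F}

lemma NodeCubic.symm (nc : NodeCubic W α β) : NodeCubic W β α where
  toTangentForm :=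
    { a₃ := nc.a₃
      a₄ := nc.a₄
      hsum := by rw [add_comm]; exact nc.hsum
      hprod := by rw [mul_comm]; exact nc.hprod }
  a₆ := nc.a₆
  hne := nc.hne.symm

/-- on a nonsingular point of the nodal cubic `s ≠ 0` -/
lemma NodeCubic.s_ne_zero (nc : NodeCubic W α β) {x y : F} (h : W.Nonsingular x y) :
    y - α * x ≠ 0 := by
  intro hs
  have hst := nc.toTangentForm.st_eq h.1
  rw [hs, zero_mul, nc.a₆, add_zero] at hst
  have hx : x = 0 := by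
    have := hst.symm
    exact pow_eq_zero_iff (by norm_num) |>.mp this
  have hy : y = 0 := by
    rw [hx, mul_zero, sub_zero] at hs
    exact hs
  rw [Affine.nonsingular_iff'] at h
  rcases h.2 with h2 | h2
  · apply h2
    rw [hx, hy, nc.a₄]
    ring
  · apply h2
    rw [hx, hy, nc.a₃]
    ring

lemma NodeCubic.t_ne_zero (nc : NodeCubic W α β) {x y : F} (h : W.Nonsingular x y) :
    y - β * x ≠ 0 := nc.symm.s_ne_zero h

/-- the character `w = s / t` of the nodal cubic -/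
noncomputable def nodeChar (W : Affine F) (α β : F) : W.Point → F
  | .zero => 1
  | .some x y _ => (y - α * x) / (y - β * x)

@[simp] lemma nodeChar_zero : nodeChar W α β (0 : W.Point) = 1 := rfl

@[simp] lemma nodeChar_some {x y : F} (h : W.Nonsingular x y) :
    nodeChar W α β (.some x y h) = (y - α * x) / (y - β * x) := rfl

lemma NodeCubic.nodeChar_ne_zero (nc : NodeCubic W α β) (P : W.Point) :
    nodeChar W α β P ≠ 0 := by
  rcases P with _ | ⟨x, y, h⟩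
  · exact one_ne_zero
  · exact div_ne_zero (nc.s_ne_zero h) (nc.t_ne_zero h)

/-- the character has trivial kernel -/
lemma NodeCubic.nodeChar_eq_one_iff (nc : NodeCubic W α β) (P : W.Point) :
    nodeChar W α β P = 1 ↔ P = 0 := by
  rcases P with _ | ⟨x, y, h⟩
  · exact ⟨fun _ => rfl, fun _ => rfl⟩
  · constructor
    · intro hw
      exfalso
      rw [nodeChar_some, div_eq_one_iff_eq (nc.t_ne_zero h)] at hw
      have hx : (β - α) * x = 0 := by linear_combination hw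
      have hβα : β - α ≠ 0 := sub_ne_zero.mpr nc.hne.symm
      have hx0 : x = 0 := (mul_eq_zero.mp hx).resolve_left hβα
      have hst := nc.toTangentForm.st_eq h.1
      rw [nc.a₆, add_zero, hx0] at hst
      have : (y - α * 0) * (y - β * 0) ≠ 0 := by
        have h1 := nc.s_ne_zero h
        have h2 := nc.t_ne_zero h
        rw [hx0] at h1 h2
        exact mul_ne_zero h1 h2
      apply this
      rw [hst]
      ring
    · intro h0
      exact absurd h0 (Point.some_ne_zero h)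

/-- the character is multiplicative -/
theorem NodeCubic.nodeChar_add (nc : NodeCubic W α β) (P Q : W.Point) :
    nodeChar W α β (P + Q) = nodeChar W α β P * nodeChar W α β Q := by
  rcases P with _ | ⟨x₁, y₁, h₁⟩
  · have : (Point.zero : W.Point) = 0 := rfl
    rw [this, zero_add, nodeChar_zero, one_mul]
  rcases Q with _ | ⟨x₂, y₂, h₂⟩
  · have : (Point.zero : W.Point) = 0 := rfl
    rw [this, add_zero, nodeChar_zero, mul_one]
  have hs₁ := nc.s_ne_zero h₁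
  have ht₁ := nc.t_ne_zero h₁
  have hs₂ := nc.s_ne_zero h₂
  have ht₂ := nc.t_ne_zero h₂
  by_cases hxy : x₁ = x₂ ∧ y₁ = W.negY x₂ y₂
  · rw [Point.add_of_Y_eq hxy.1 hxy.2, nodeChar_zero, nodeChar_some, nodeChar_some]
    have e1 : y₁ - α * x₁ = -(y₂ - β * x₂) := by
      rw [hxy.1, hxy.2]; exact negY_sub_mul nc.toTangentForm x₂ y₂
    have e2 : y₁ - β * x₁ = -(y₂ - α * x₂) := by
      rw [hxy.1, hxy.2]; exact negY_sub_mul nc.toTangentForm.symm x₂ y₂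
    rw [e1, e2, neg_div_neg_eq, div_mul_div_comm, mul_comm, div_self (mul_ne_zero hs₂ ht₂)]
  · rw [Point.add_some hxy, nodeChar_some, nodeChar_some, nodeChar_some]
    have hS := chord_s nc.toTangentForm h₁.1 h₂.1 hxy
    have hT := chord_t nc.toTangentForm h₁.1 h₂.1 hxy
    rw [nc.a₆, mul_zero, zero_sub] at hS hT
    have hns := nonsingular_add h₁ h₂ hxy
    have hs₃ := nc.s_ne_zero hns
    have ht₃ := nc.t_ne_zero hns
    rw [div_mul_div_comm, div_eq_div_iff ht₃ (mul_ne_zero ht₁ ht₂)]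
    linear_combination hT - hS

theorem NodeCubic.nodeChar_nsmul (nc : NodeCubic W α β) (n : ℕ) (P : W.Point) :
    nodeChar W α β (n • P) = nodeChar W α β P ^ n := by
  induction n with
  | zero => rw [zero_smul, pow_zero, nodeChar_zero]
  | succ n ih => rw [succ_nsmul, nc.nodeChar_add, ih, pow_succ]

/-- **a nodal cubic in characteristic `p` has no `p`-power torsion** -/
theorem NodeCubic.eq_zero_of_pow_smul (nc : NodeCubic W α β) (p : ℕ) [Fact p.Prime] [CharP F p]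
    (k : ℕ) {P : W.Point} (hP : (p ^ k) • P = 0) : P = 0 := by
  rw [← nc.nodeChar_eq_one_iff]
  have h := nc.nodeChar_nsmul (p ^ k) P
  rw [hP, nodeChar_zero] at h
  have h2 : (nodeChar W α β P - 1) ^ p ^ k = 0 := by
    rw [sub_pow_char_pow, one_pow, ← h, sub_self]
  exact sub_eq_zero.mp (pow_eq_zero_iff (pow_ne_zero _ (Fact.out : p.Prime).ne_zero) |>.mp h2)

end Node

end Fermat.Agent.MultRed
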