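/-
MultRed MR5 piece P3 (helper75): the approximate character `w = s / t` on the kernel of reduction
of a curve in nodal normal form.

* `NodalNF.v_nodeChar_add_sub_le`: for `P, Q` in the kernel of reduction,
  `v (w (P + Q) - w P * w Q) ≤ v a₆ * max (v (1/x P)) (v (1/x Q))`.
-/
import Mathlib
import Fermat.Agent.MUL.Orig.Lib.MultRed.Char
import Fermat.Agent.MUL.Orig.Lib.MultRed.Core
import Fermat.Agent.MUL.Orig.S05.H75.KerRed
import Fermat.Agent.MUL.Orig.S05.H5.Galois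
import Fermat.Agent.MUL.S36.Seed.EndsVertMod

set_option autoImplicit false
set_option linter.unusedSectionVars false

namespace Fermat.Agent.MultRed

open WeierstrassCurve WeierstrassCurve.Affine S05H5 S05H65 S05H75

variable {K : Type*} [Field K] [DecidableEq K] {Γ₀ : Type*} [LinearOrderedCommGroupWithZero Γ₀]
variable {v : Valuation K Γ₀} {W : Affine K} {α β : K}

lemma NodalNF.tangentForm (nf : NodalNF v W α β) : TangentForm W α β :=
  ⟨nf.a₃, nf.a₄, nf.hsum, nf.hprod⟩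

section Pointwise

/-- on a point of the kernel of reduction `v x < v y` -/
lemma NodalNF.vx_lt_vy (nf : NodalNF v W α β) {x y : K} (h : W.Equation x y) (hx : 1 < v x) :
    v x < v y := by
  by_contra hy
  rw [not_lt] at hy
  rw [Affine.equation_iff, nf.a₃, nf.a₄] at h
  have e : x ^ 3 = y ^ 2 + W.a₁ * x * y - W.a₂ * x ^ 2 - W.a₆ := by linear_combination -h
  have hx0 : (0 : Γ₀) < v x := lt_trans zero_lt_one hx
  have hx1 : (1 : Γ₀) ≤ v x ^ 2 := one_le_pow₀ hx.le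
  have h1 : v (y ^ 2) ≤ v x ^ 2 := by
    rw [map_pow]; exact pow_le_pow_left₀ zero_le hy 2
  have h2 : v (W.a₁ * x * y) ≤ v x ^ 2 := by
    rw [map_mul, map_mul, pow_two]
    calc v W.a₁ * v x * v y ≤ 1 * v x * v x :=
          mul_le_mul' (mul_le_mul' nf.va₁ le_rfl) hy
      _ = v x * v x := by rw [one_mul]
  have h3 : v (W.a₂ * x ^ 2) ≤ v x ^ 2 := by
    rw [map_mul, map_pow]
    calc v W.a₂ * v x ^ 2 ≤ 1 * v x ^ 2 := mul_le_mul' nf.va₂ le_rfl
      _ = v x ^ 2 := one_mul _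
  have h4 : v W.a₆ ≤ v x ^ 2 := le_trans nf.va₆.le hx1
  have h5 : v (x ^ 3) ≤ v x ^ 2 := by
    rw [e]
    exact Valuation.map_sub_le _ (Valuation.map_sub_le _ (Valuation.map_add_le _ h1 h2) h3) h4
  rw [map_pow] at h5
  exact absurd h5 (not_le.mpr (pow_lt_pow_right₀ hx (by norm_num)))

/-- on a point of the kernel of reduction `v y ^ 2 = v x ^ 3` -/
lemma NodalNF.vy_sq (nf : NodalNF v W α β) {x y : K} (h : W.Equation x y) (hx : 1 < v x) :
    v y ^ 2 = v x ^ 3 := by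
  have hxy := nf.vx_lt_vy h hx
  rw [Affine.equation_iff, nf.a₃, nf.a₄] at h
  have e : y * (y + W.a₁ * x) = x ^ 3 + (W.a₂ * x ^ 2 + W.a₆) := by linear_combination h
  have h1 : v (W.a₁ * x) < v y := by
    rw [map_mul]
    calc v W.a₁ * v x ≤ 1 * v x := mul_le_mul' nf.va₁ le_rfl
      _ = v x := one_mul _
      _ < v y := hxy
  have h2 : v (y + W.a₁ * x) = v y := Valuation.map_add_eq_of_lt_left _ h1
  have hx1 : (1 : Γ₀) ≤ v x ^ 2 := one_le_pow₀ hx.le
  have h3 : v (W.a₂ * x ^ 2 + W.a₆) < v (x ^ 3) := by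
    rw [map_pow]
    refine lt_of_le_of_lt ?_ (pow_lt_pow_right₀ hx (by norm_num : 2 < 3))
    refine Valuation.map_add_le _ ?_ (le_trans nf.va₆.le hx1)
    rw [map_mul, map_pow]
    calc v W.a₂ * v x ^ 2 ≤ 1 * v x ^ 2 := mul_le_mul' nf.va₂ le_rfl
      _ = v x ^ 2 := one_mul _
  have h4 : v (x ^ 3 + (W.a₂ * x ^ 2 + W.a₆)) = v (x ^ 3) := Valuation.map_add_eq_of_lt_left _ h3
  have := congrArg v e
  rw [map_mul, h2, h4, map_pow] at this
  rw [pow_two]
  exact this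

/-- on a point of the kernel of reduction `v s = v y` -/
lemma NodalNF.vs_eq (nf : NodalNF v W α β) {x y : K} (h : W.Equation x y) (hx : 1 < v x) :
    v (y - α * x) = v y := by
  apply Valuation.map_sub_eq_of_lt_left
  rw [map_mul]
  calc v α * v x ≤ 1 * v x := mul_le_mul' nf.vα le_rfl
    _ = v x := one_mul _
    _ < v y := nf.vx_lt_vy h hx

lemma NodalNF.symm (nf : NodalNF v W α β) : NodalNF v W β α where
  a₃ := nf.a₃
  a₄ := nf.a₄
  va₆ := nf.va₆
  hsum := by rw [add_comm]; exact nf.hsum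
  hprod := by rw [mul_comm]; exact nf.hprod
  vα := nf.vβ
  vβ := nf.vα
  vαβ := nf.vβα

lemma NodalNF.vt_eq (nf : NodalNF v W α β) {x y : K} (h : W.Equation x y) (hx : 1 < v x) :
    v (y - β * x) = v y := nf.symm.vs_eq h hx

lemma NodalNF.vy_pos (nf : NodalNF v W α β) {x y : K} (h : W.Equation x y) (hx : 1 < v x) :
    0 < v y := lt_trans (lt_trans zero_lt_one hx) (nf.vx_lt_vy h hx)

lemma NodalNF.t_ne_zero (nf : NodalNF v W α β) {x y : K} (h : W.Equation x y) (hx : 1 < v x) :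
    y - β * x ≠ 0 := by
  intro h0
  have := nf.vt_eq h hx
  rw [h0, map_zero] at this
  exact (nf.vy_pos h hx).ne this

/-- `v (w - 1) = v x / v y` on the kernel of reduction -/
lemma NodalNF.v_nodeChar_sub_one (nf : NodalNF v W α β) {x y : K} (h : W.Nonsingular x y)
    (hx : 1 < v x) :
    v (nodeChar W α β (.some x y h) - 1) = v x / v y := by
  have ht := nf.t_ne_zero h.1 hx
  have e : nodeChar W α β (.some x y h) - 1 = (β - α) * x / (y - β * x) := by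
    rw [nodeChar_some, eq_div_iff ht, sub_mul, div_mul_cancel₀ _ ht]
    ring
  rw [e, map_div₀, map_mul, nf.vβα, one_mul, nf.vt_eq h.1 hx]

/-- `v (w - 1) ^ 2 = v (1 / x)` on the kernel of reduction -/
lemma NodalNF.v_nodeChar_sub_one_sq (nf : NodalNF v W α β) {x y : K} (h : W.Nonsingular x y)
    (hx : 1 < v x) :
    v (nodeChar W α β (.some x y h) - 1) ^ 2 = (v x)⁻¹ := by
  rw [nf.v_nodeChar_sub_one h hx, div_pow, nf.vy_sq h.1 hx]
  have hx0 : v x ≠ 0 := (lt_trans zero_lt_one hx).ne'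
  rw [div_eq_iff (pow_ne_zero 3 hx0), pow_succ' (v x) 2, ← mul_assoc, inv_mul_cancel₀ hx0, one_mul]

end Pointwise

section Defect

omit [DecidableEq K] in
lemma le_mul3 {a A B C u : Γ₀} (h1 : a ≤ A) (h2 : 1 ≤ u * B) (h3 : 1 ≤ C) :
    a ≤ u * (A * B * C) := by
  calc a = a * 1 * 1 := by rw [mul_one, mul_one]
    _ ≤ A * (u * B) * C := mul_le_mul' (mul_le_mul' h1 h2) h3
    _ = u * (A * B * C) := by ac_rfl

omit [DecidableEq K] in
/-- bound for `a² + a b + b²`, `a = ℓ - α`, `b = ℓ - β`, by the `x`-coordinates on the chord -/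
lemma NodalNF.v_quad_le (nf : NodalNF v W α β) {x₁ x₂ ℓ : K} {M : Γ₀} (hM1 : 1 ≤ M)
    (h₁ : v x₁ ≤ M) (h₂ : v x₂ ≤ M) (h₃ : v (W.addX x₁ x₂ ℓ) ≤ M) :
    v ((ℓ - α) ^ 2 + (ℓ - α) * (ℓ - β) + (ℓ - β) ^ 2) ≤ M := by
  have key : ∀ {g : Γ₀}, v (ℓ - α) ≤ g → v (ℓ - β) ≤ g →
      v ((ℓ - α) ^ 2 + (ℓ - α) * (ℓ - β) + (ℓ - β) ^ 2) ≤ g ^ 2 := by
    intro g ha hb
    refine Valuation.map_add_le _ (Valuation.map_add_le _ ?_ ?_) ?_
    · rw [map_pow]; exact pow_le_pow_left₀ zero_le ha 2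
    · rw [map_mul, pow_two]; exact mul_le_mul' ha hb
    · rw [map_pow]; exact pow_le_pow_left₀ zero_le hb 2
  by_cases hL : v ℓ ≤ 1
  · have := key (g := 1) (Valuation.map_sub_le _ hL nf.vα) (Valuation.map_sub_le _ hL nf.vβ)
    rw [one_pow] at this
    exact le_trans this hM1
  · rw [not_le] at hL
    have hLM : v ℓ ^ 2 ≤ M := by
      by_contra hcon
      rw [not_le] at hcon
      have e : ℓ ^ 2 = W.addX x₁ x₂ ℓ - W.a₁ * ℓ + W.a₂ + x₁ + x₂ := by
        simp only [Affine.addX]; ring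
      have hL2 : v ℓ < v ℓ ^ 2 := by
        rw [pow_two]
        calc v ℓ = 1 * v ℓ := (one_mul _).symm
          _ < v ℓ * v ℓ := by
            exact mul_lt_mul_of_pos_right hL (lt_trans zero_lt_one hL)
      have h1 : v (W.a₁ * ℓ) < v ℓ ^ 2 := by
        refine lt_of_le_of_lt ?_ hL2
        rw [map_mul]
        calc v W.a₁ * v ℓ ≤ 1 * v ℓ := mul_le_mul' nf.va₁ le_rfl
          _ = v ℓ := one_mul _
      have h2 : v W.a₂ < v ℓ ^ 2 := lt_of_le_of_lt nf.va₂ (lt_trans hL hL2)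
      have : v (ℓ ^ 2) < v ℓ ^ 2 := by
        rw [e]
        exact Valuation.map_add_lt _ (Valuation.map_add_lt _ (Valuation.map_add_lt _
          (Valuation.map_sub_lt _ (lt_of_le_of_lt h₃ hcon) h1) h2) (lt_of_le_of_lt h₁ hcon))
          (lt_of_le_of_lt h₂ hcon)
      rw [map_pow] at this
      exact lt_irrefl _ this
    have ha : v (ℓ - α) ≤ v ℓ := Valuation.map_sub_le _ le_rfl (le_trans nf.vα hL.le)
    have hb : v (ℓ - β) ≤ v ℓ := Valuation.map_sub_le _ le_rfl (le_trans nf.vβ hL.le)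
    exact le_trans (key ha hb) hLM

/-- **the defect of multiplicativity** of `w = s / t` on the kernel of reduction, in
coordinates -/
theorem NodalNF.v_defect_le (nf : NodalNF v W α β) {x₁ y₁ x₂ y₂ : K}
    (h₁ : W.Nonsingular x₁ y₁) (h₂ : W.Nonsingular x₂ y₂)
    (hxy : ¬(x₁ = x₂ ∧ y₁ = W.negY x₂ y₂)) (hx₁ : 1 < v x₁) (hx₂ : 1 < v x₂)
    (hx₃ : 1 < v (W.addX x₁ x₂ (W.slope x₁ x₂ y₁ y₂))) {u : Γ₀}
    (hu₁ : (v x₁)⁻¹ ≤ u) (hu₂ : (v x₂)⁻¹ ≤ u) :
    v (nodeChar W α β (Point.some x₁ y₁ h₁ + Point.some x₂ y₂ h₂)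
        - nodeChar W α β (Point.some x₁ y₁ h₁) * nodeChar W α β (Point.some x₂ y₂ h₂))
      ≤ v W.a₆ * u := by
  rw [Point.add_some hxy, nodeChar_some, nodeChar_some, nodeChar_some]
  have h₃ := nonsingular_add h₁ h₂ hxy
  have hS := chord_s nf.tangentForm h₁.1 h₂.1 hxy
  have hT := chord_t nf.tangentForm h₁.1 h₂.1 hxy
  set ℓ := W.slope x₁ x₂ y₁ y₂ with hℓ
  set x₃ := W.addX x₁ x₂ ℓ with hx₃def
  set y₃ := W.addY x₁ x₂ y₁ ℓ with hy₃def
  have ht₁ := nf.t_ne_zero h₁.1 hx₁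
  have ht₂ := nf.t_ne_zero h₂.1 hx₂
  have ht₃ := nf.t_ne_zero h₃.1 hx₃
  have e : (y₃ - α * x₃) / (y₃ - β * x₃) - (y₁ - α * x₁) / (y₁ - β * x₁) *
        ((y₂ - α * x₂) / (y₂ - β * x₂))
      = (α - β) * ((ℓ - α) ^ 2 + (ℓ - α) * (ℓ - β) + (ℓ - β) ^ 2) * W.a₆
        / ((y₁ - β * x₁) * (y₂ - β * x₂) * (y₃ - β * x₃)) := by
    rw [div_mul_div_comm, div_sub_div _ _ ht₃ (mul_ne_zero ht₁ ht₂),
      div_eq_div_iff (mul_ne_zero ht₃ (mul_ne_zero ht₁ ht₂))
        (mul_ne_zero (mul_ne_zero ht₁ ht₂) ht₃)]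
    linear_combination ((y₃ - β * x₃) * ((y₁ - β * x₁) * (y₂ - β * x₂))) * hT
      - ((y₃ - β * x₃) * ((y₁ - β * x₁) * (y₂ - β * x₂))) * hS
  rw [e, map_div₀, map_mul, map_mul, nf.vαβ, one_mul, map_mul, map_mul, nf.vt_eq h₁.1 hx₁,
    nf.vt_eq h₂.1 hx₂, nf.vt_eq h₃.1 hx₃]
  have hy₁ := nf.vx_lt_vy h₁.1 hx₁
  have hy₂ := nf.vx_lt_vy h₂.1 hx₂
  have hy₃ := nf.vx_lt_vy h₃.1 hx₃
  have hx₁0 : 0 < v x₁ := lt_trans zero_lt_one hx₁
  have hx₂0 : 0 < v x₂ := lt_trans zero_lt_one hx₂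
  have hY0 : v y₁ * v y₂ * v y₃ ≠ 0 :=
    mul_ne_zero (mul_ne_zero (nf.vy_pos h₁.1 hx₁).ne' (nf.vy_pos h₂.1 hx₂).ne')
      (nf.vy_pos h₃.1 hx₃).ne'
  have hu₁' : 1 ≤ u * v y₁ := by
    have : 1 ≤ u * v x₁ := by
      calc (1 : Γ₀) = (v x₁)⁻¹ * v x₁ := (inv_mul_cancel₀ hx₁0.ne').symm
        _ ≤ u * v x₁ := mul_le_mul' hu₁ le_rfl
    exact le_trans this (mul_le_mul' le_rfl hy₁.le)
  have hu₂' : 1 ≤ u * v y₂ := by
    have : 1 ≤ u * v x₂ := by
      calc (1 : Γ₀) = (v x₂)⁻¹ * v x₂ := (inv_mul_cancel₀ hx₂0.ne').symm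
        _ ≤ u * v x₂ := mul_le_mul' hu₂ le_rfl
    exact le_trans this (mul_le_mul' le_rfl hy₂.le)
  have hy₁1 : 1 ≤ v y₁ := (lt_trans hx₁ hy₁).le
  have hy₂1 : 1 ≤ v y₂ := (lt_trans hx₂ hy₂).le
  have hy₃1 : 1 ≤ v y₃ := (lt_trans hx₃ hy₃).le
  -- the three coordinates are bounded by `u * (v y₁ * v y₂ * v y₃)`
  have b₁ : v x₁ ≤ u * (v y₁ * v y₂ * v y₃) := le_mul3 hy₁.le hu₂' hy₃1
  have b₂ : v x₂ ≤ u * (v y₁ * v y₂ * v y₃) := by
    have := le_mul3 (u := u) hy₂.le hu₁' hy₃1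
    calc v x₂ ≤ u * (v y₂ * v y₁ * v y₃) := this
      _ = u * (v y₁ * v y₂ * v y₃) := by ac_rfl
  have b₃ : v x₃ ≤ u * (v y₁ * v y₂ * v y₃) := by
    have := le_mul3 (u := u) hy₃.le hu₁' hy₂1
    calc v x₃ ≤ u * (v y₃ * v y₁ * v y₂) := this
      _ = u * (v y₁ * v y₂ * v y₃) := by ac_rfl
  have hM1 : (1 : Γ₀) ≤ u * (v y₁ * v y₂ * v y₃) := le_trans hx₁.le b₁
  have hQ := nf.v_quad_le (ℓ := ℓ) hM1 b₁ b₂ b₃
  rw [div_le_iff₀ (zero_lt_iff.mpr hY0)]
  calc v ((ℓ - α) ^ 2 + (ℓ - α) * (ℓ - β) + (ℓ - β) ^ 2) * v W.a₆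
      ≤ u * (v y₁ * v y₂ * v y₃) * v W.a₆ := mul_le_mul' hQ le_rfl
    _ = v W.a₆ * u * (v y₁ * v y₂ * v y₃) := by ac_rfl

end Defect

section Points

omit [DecidableEq K] in
lemma NodalNF.vb (nf : NodalNF v W α β) :
    v W.b₂ ≤ 1 ∧ v W.b₄ ≤ 1 ∧ v W.b₆ ≤ 1 ∧ v W.b₈ ≤ 1 :=
  v_b_le_one v W nf.va₁ nf.va₂ (by rw [nf.a₃, map_zero]; exact zero_le_one)
    (by rw [nf.a₄, map_zero]; exact zero_le_one) nf.va₆.le

lemma one_lt_of_inG1_some {x y : K} {h : W.Nonsingular x y}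
    (hP : InG1 v (Point.some x y h)) : 1 < v x := by
  rcases hP with h0 | hlt
  · exact absurd h0 (Point.some_ne_zero h)
  · rwa [px_some] at hlt

lemma v_pt_some {x y : K} (h : W.Nonsingular x y) :
    v (pt (Point.some x y h)) = (v x)⁻¹ := by
  rw [pt, px_some, map_inv₀]

/-- `v (w P - 1) ^ 2 = v (1 / x P)` on the kernel of reduction -/
lemma NodalNF.v_nodeChar_sub_one_sq' (nf : NodalNF v W α β) {P : W.Point} (hP : InG1 v P) :
    v (nodeChar W α β P - 1) ^ 2 = v (pt P) := by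
  rcases P with _ | ⟨x, y, h⟩
  · have : (Point.zero : W.Point) = 0 := rfl
    rw [this, nodeChar_zero, sub_self, map_zero, pt_zero, map_zero]
    exact zero_pow (by norm_num)
  · rw [v_pt_some, nf.v_nodeChar_sub_one_sq h (one_lt_of_inG1_some hP)]

lemma NodalNF.v_nodeChar_sub_one_lt (nf : NodalNF v W α β) {P : W.Point} (hP : InG1 v P) :
    v (nodeChar W α β P - 1) < 1 := by
  have h1 := nf.v_nodeChar_sub_one_sq' hP
  have h2 : v (pt P) < 1 := ((inG1_iff v P).mp hP).2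
  by_contra hcon
  rw [not_lt] at hcon
  have : (1 : Γ₀) ≤ v (nodeChar W α β P - 1) ^ 2 := one_le_pow₀ hcon
  rw [h1] at this
  exact absurd h2 (not_lt.mpr this)

lemma NodalNF.v_nodeChar (nf : NodalNF v W α β) {P : W.Point} (hP : InG1 v P) :
    v (nodeChar W α β P) = 1 := by
  have : nodeChar W α β P = 1 + (nodeChar W α β P - 1) := by ring
  rw [this]
  exact Valuation.map_one_add_of_lt _ (nf.v_nodeChar_sub_one_lt hP)

/-- `w (-P) * w P = 1` -/
lemma NodalNF.nodeChar_opp (nf : NodalNF v W α β) {x₁ y₁ x₂ y₂ : K}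
    (h₁ : W.Nonsingular x₁ y₁) (h₂ : W.Nonsingular x₂ y₂) (hx₂ : 1 < v x₂)
    (hxy : x₁ = x₂ ∧ y₁ = W.negY x₂ y₂) :
    nodeChar W α β (Point.some x₁ y₁ h₁) * nodeChar W α β (Point.some x₂ y₂ h₂) = 1 := by
  rw [nodeChar_some, nodeChar_some]
  have hs₂ : y₂ - α * x₂ ≠ 0 := nf.symm.t_ne_zero h₂.1 hx₂
  have ht₂ : y₂ - β * x₂ ≠ 0 := nf.t_ne_zero h₂.1 hx₂
  have e1 : y₁ - α * x₁ = -(y₂ - β * x₂) := by
    rw [hxy.1, hxy.2]; exact negY_sub_mul nf.tangentForm x₂ y₂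
  have e2 : y₁ - β * x₁ = -(y₂ - α * x₂) := by
    rw [hxy.1, hxy.2]; exact negY_sub_mul nf.tangentForm.symm x₂ y₂
  rw [e1, e2, neg_div_neg_eq, div_mul_div_comm, mul_comm, div_self (mul_ne_zero hs₂ ht₂)]

/-- **the defect of multiplicativity** of `w` on the kernel of reduction -/
theorem NodalNF.v_nodeChar_add_le (nf : NodalNF v W α β) {P Q : W.Point}
    (hP : InG1 v P) (hQ : InG1 v Q) {u : Γ₀} (hPu : v (pt P) ≤ u) (hQu : v (pt Q) ≤ u) :
    v (nodeChar W α β (P + Q) - nodeChar W α β P * nodeChar W α β Q) ≤ v W.a₆ * u := by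
  obtain ⟨hb₂, hb₄, hb₆, hb₈⟩ := nf.vb
  have hsum := inG1_add v hb₂ hb₄ hb₆ hb₈ hP hQ
  rcases P with _ | ⟨x₁, y₁, h₁⟩
  · have : (Point.zero : W.Point) = 0 := rfl
    rw [this, zero_add, nodeChar_zero, one_mul, sub_self, map_zero]
    exact zero_le
  rcases Q with _ | ⟨x₂, y₂, h₂⟩
  · have : (Point.zero : W.Point) = 0 := rfl
    rw [this, add_zero, nodeChar_zero, mul_one, sub_self, map_zero]
    exact zero_le
  have hx₁ := one_lt_of_inG1_some hP
  have hx₂ := one_lt_of_inG1_some hQ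
  by_cases hxy : x₁ = x₂ ∧ y₁ = W.negY x₂ y₂
  · rw [nf.nodeChar_opp h₁ h₂ hx₂ hxy, Point.add_of_Y_eq hxy.1 hxy.2, nodeChar_zero, sub_self,
      map_zero]
    exact zero_le
  · rw [Point.add_some hxy] at hsum
    have hx₃ := one_lt_of_inG1_some hsum
    rw [v_pt_some] at hPu hQu
    exact nf.v_defect_le h₁ h₂ hxy hx₁ hx₂ hx₃ hPu hQu

/-- the iterated defect: `w (k P) ≡ w P ^ k` -/
theorem NodalNF.v_nodeChar_nsmul_le (nf : NodalNF v W α β) {P : W.Point} (hP : InG1 v P)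
    (k : ℕ) :
    InG1 v (k • P) ∧ v (pt (k • P)) ≤ v (pt P) ∧
      v (nodeChar W α β (k • P) - nodeChar W α β P ^ k) ≤ v W.a₆ * v (pt P) := by
  obtain ⟨hb₂, hb₄, hb₆, hb₈⟩ := nf.vb
  have hG := (inG1_iff v P).mp hP
  induction k with
  | zero =>
    refine ⟨Or.inl (zero_smul _ _), ?_, ?_⟩
    · rw [zero_smul, pt_zero, map_zero]; exact zero_le
    · rw [zero_smul, pow_zero, nodeChar_zero, sub_self, map_zero]; exact zero_le
  | succ k ih =>
    obtain ⟨ih1, ih2, ih3⟩ := ih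
    have hGk := (inG1_iff v (k • P)).mp ih1
    obtain ⟨-, -, hv, -, -⟩ := step v hb₂ hb₄ hb₆ hb₈ hG.2 hGk.1 hG.1 ih2 le_rfl
    rw [succ_nsmul]
    refine ⟨inG1_add v hb₂ hb₄ hb₆ hb₈ ih1 hP, hv, ?_⟩
    have e : nodeChar W α β (k • P + P) - nodeChar W α β P ^ (k + 1)
        = (nodeChar W α β (k • P + P) - nodeChar W α β (k • P) * nodeChar W α β P)
          + nodeChar W α β P * (nodeChar W α β (k • P) - nodeChar W α β P ^ k) := by ring
    rw [e]
    refine Valuation.map_add_le _ (nf.v_nodeChar_add_le ih1 hP ih2 le_rfl) ?_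
    rw [map_mul, nf.v_nodeChar hP, one_mul]
    exact ih3

end Points

section Binomial

omit [DecidableEq K] in
/-- the binomial estimate `(1 + η)^p ≡ 1 + p η + η^p` modulo `p η²` -/
theorem v_one_add_pow_sub_le (v : Valuation K Γ₀) {p : ℕ} (hp : p.Prime) {η : K}
    (hη : v η ≤ 1) :
    v ((1 + η) ^ p - 1 - (p : K) * η - η ^ p) ≤ v (p : K) * v η ^ 2 := by
  have h2 : 2 ≤ p := hp.two_le
  set f : ℕ → K := fun m => η ^ m * 1 ^ (p - m) * (p.choose m : K) with hf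
  have hsum : (1 + η) ^ p = ∑ m ∈ Finset.range (p + 1), f m := by
    rw [add_comm, add_pow]
  have h0 : 0 ∈ Finset.range (p + 1) := Finset.mem_range.mpr (by omega)
  have h1 : 1 ∈ (Finset.range (p + 1)).erase 0 :=
    Finset.mem_erase.mpr ⟨by norm_num, Finset.mem_range.mpr (by omega)⟩
  have hpm : p ∈ ((Finset.range (p + 1)).erase 0).erase 1 :=
    Finset.mem_erase.mpr ⟨by omega, Finset.mem_erase.mpr ⟨by omega, Finset.mem_range.mpr (by omega)⟩⟩
  have e : (1 + η) ^ p - 1 - (p : K) * η - η ^ p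
      = ∑ m ∈ (((Finset.range (p + 1)).erase 0).erase 1).erase p, f m := by
    rw [hsum, ← Finset.add_sum_erase _ f h0, ← Finset.add_sum_erase _ f h1,
      ← Finset.add_sum_erase _ f hpm]
    simp only [hf, pow_zero, one_pow, Nat.choose_zero_right, Nat.cast_one, mul_one, pow_one,
      Nat.choose_one_right, Nat.choose_self]
    ring
  rw [e]
  apply Valuation.map_sum_le
  intro m hm
  simp only [Finset.mem_erase, Finset.mem_range] at hm
  obtain ⟨hmp, hm1, hm0, hmlt⟩ := hm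
  have hm2 : 2 ≤ m := by omega
  have hmp' : m < p := by omega
  have hdvd : p ∣ p.choose m := hp.dvd_choose_self hm0 hmp'
  obtain ⟨c, hc⟩ := hdvd
  have hvn : ∀ n : ℕ, v (n : K) ≤ 1 := by
    intro n
    induction n with
    | zero => simp
    | succ n ih =>
      rw [Nat.cast_succ]
      exact v.map_add_le ih (le_of_eq v.map_one)
  have hvc : v (c : K) ≤ 1 := hvn c
  simp only [hf, one_pow, mul_one, hc, Nat.cast_mul, map_mul, map_pow]
  have hpow : v η ^ m ≤ v η ^ 2 := pow_le_pow_of_le_one zero_le hη hm2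
  calc v η ^ m * (v (p : K) * v (c : K)) ≤ v η ^ 2 * (v (p : K) * 1) :=
        mul_le_mul' hpow (mul_le_mul' le_rfl hvc)
    _ = v (p : K) * v η ^ 2 := by rw [mul_one, mul_comm]

end Binomial

section Count

open Polynomial

/-- **the size of the character on `E1[p]`**: `v (w P - 1) ^ (p - 1) = v p` -/
theorem NodalNF.v_nodeChar_sub_one_pow (nf : NodalNF v W α β) {p : ℕ} (hp : p.Prime)
    (hp0 : (p : K) ≠ 0) (ha₆ : v W.a₆ ≤ v (p : K)) {P : W.Point} (hP : InG1 v P) (hP0 : P ≠ 0)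
    (hpP : p • P = 0) :
    v (nodeChar W α β P - 1) ^ (p - 1) = v (p : K) := by
  set η := nodeChar W α β P - 1 with hη
  have hρ1 : v η < 1 := nf.v_nodeChar_sub_one_lt hP
  have hsq : v η ^ 2 = v (pt P) := nf.v_nodeChar_sub_one_sq' hP
  have hG := (inG1_iff v P).mp hP
  have hpt0 : v (pt P) ≠ 0 := by
    rw [Valuation.ne_zero_iff]
    exact inv_ne_zero (hG.1.resolve_left hP0)
  have hρ0 : v η ≠ 0 := by
    intro h0
    rw [h0] at hsq
    exact hpt0 (by rw [← hsq]; exact zero_pow (by norm_num))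
  have hρpos : 0 < v η := zero_lt_iff.mpr hρ0
  have hvp0 : v (p : K) ≠ 0 := (Valuation.ne_zero_iff v).mpr hp0
  have hvppos : 0 < v (p : K) := zero_lt_iff.mpr hvp0
  -- `w ^ p ≡ 1`
  obtain ⟨-, -, h1⟩ := nf.v_nodeChar_nsmul_le hP p
  rw [hpP, nodeChar_zero, ← hsq] at h1
  have hw : nodeChar W α β P = 1 + η := by rw [hη]; ring
  rw [hw] at h1
  have h1' : v ((1 + η) ^ p - 1) ≤ v (p : K) * v η ^ 2 := by
    rw [Valuation.map_sub_swap]
    exact le_trans h1 (mul_le_mul' ha₆ le_rfl)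
  have h2 := v_one_add_pow_sub_le v hp hρ1.le
  have h3 : v ((p : K) * η + η ^ p) ≤ v (p : K) * v η ^ 2 := by
    have e : (p : K) * η + η ^ p
        = ((1 + η) ^ p - 1) - ((1 + η) ^ p - 1 - (p : K) * η - η ^ p) := by ring
    rw [e]
    exact Valuation.map_sub_le _ h1' h2
  have h4 : v (p : K) * v η ^ 2 < v (p : K) * v η := by
    have : v η ^ 2 < v η := by
      rw [pow_two]
      calc v η * v η < 1 * v η := mul_lt_mul_of_pos_right hρ1 hρpos
        _ = v η := one_mul _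
    exact mul_lt_mul_of_pos_left this hvppos
  by_contra hne
  have hne' : v ((p : K) * η) ≠ v (η ^ p) := by
    rw [map_mul, map_pow]
    intro heq
    apply hne
    have hpow : v η ^ p = v η ^ (p - 1) * v η := by
      rw [← pow_succ, Nat.sub_add_cancel hp.one_le]
    rw [hpow] at heq
    exact (mul_right_cancel₀ hρ0 heq).symm
  have h5 := Valuation.map_add_of_distinct_val v hne'
  have h6 : v (p : K) * v η ≤ v ((p : K) * η + η ^ p) := by
    rw [h5, map_mul]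
    exact le_max_left _ _
  exact absurd (lt_of_le_of_lt (le_trans h6 h3) h4) (lt_irrefl _)

/-- `w ^ p ≡ 1` on `E1[p]` -/
theorem NodalNF.v_nodeChar_pow_sub_one_le (nf : NodalNF v W α β) {p : ℕ}
    (ha₆ : v W.a₆ ≤ v (p : K)) {P : W.Point} (hP : InG1 v P) (hpP : p • P = 0) :
    v (nodeChar W α β P ^ p - 1) ≤ v (p : K) * v (nodeChar W α β P - 1) ^ 2 := by
  obtain ⟨-, -, h1⟩ := nf.v_nodeChar_nsmul_le hP p
  rw [hpP, nodeChar_zero, ← nf.v_nodeChar_sub_one_sq' hP] at h1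
  rw [Valuation.map_sub_swap]
  exact le_trans h1 (mul_le_mul' ha₆ le_rfl)

/-- distinct points of `E1[p]` have characters at distance exactly `v p ^ (1 / (p - 1))` -/
theorem NodalNF.v_nodeChar_sub_pow (nf : NodalNF v W α β) {p : ℕ} (hp : p.Prime)
    (hp0 : (p : K) ≠ 0) (ha₆ : v W.a₆ ≤ v (p : K)) {P Q : W.Point} (hP : InG1 v P)
    (hQ : InG1 v Q) (hpP : p • P = 0) (hpQ : p • Q = 0) (hne : P ≠ Q) :
    v (nodeChar W α β P - nodeChar W α β Q) ^ (p - 1) = v (p : K) := by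
  obtain ⟨hb₂, hb₄, hb₆, hb₈⟩ := nf.vb
  have hR : InG1 v (P - Q) := inG1_sub v hb₂ hb₄ hb₆ hb₈ hP hQ
  have hR0 : P - Q ≠ 0 := sub_ne_zero.mpr hne
  have hpR : p • (P - Q) = 0 := by rw [smul_sub, hpP, hpQ, sub_zero]
  have hρ := nf.v_nodeChar_sub_one_pow hp hp0 ha₆ hR hR0 hpR
  set ρ := v (nodeChar W α β (P - Q) - 1) with hρdef
  have hρ1 : ρ < 1 := nf.v_nodeChar_sub_one_lt hR
  have hvp0 : v (p : K) ≠ 0 := (Valuation.ne_zero_iff v).mpr hp0
  have hvppos : 0 < v (p : K) := zero_lt_iff.mpr hvp0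
  have hp1 : p - 1 ≠ 0 := by have := hp.two_le; omega
  -- the defect for `(P - Q) + Q`
  have hu : max (v (pt (P - Q))) (v (pt Q)) < 1 :=
    max_lt ((inG1_iff v _).mp hR).2 ((inG1_iff v _).mp hQ).2
  have hD := nf.v_nodeChar_add_le hR hQ (le_max_left _ _) (le_max_right _ _)
  rw [sub_add_cancel] at hD
  have hD' : v (nodeChar W α β P - nodeChar W α β (P - Q) * nodeChar W α β Q) < ρ := by
    refine lt_of_le_of_lt hD ?_
    calc v W.a₆ * max (v (pt (P - Q))) (v (pt Q))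
        ≤ v (p : K) * max (v (pt (P - Q))) (v (pt Q)) := mul_le_mul' ha₆ le_rfl
      _ < v (p : K) * 1 := mul_lt_mul_of_pos_left hu hvppos
      _ = ρ ^ (p - 1) := by rw [mul_one, hρ]
      _ ≤ ρ := pow_le_of_le_one zero_le hρ1.le hp1
  have e : nodeChar W α β P - nodeChar W α β Q
      = (nodeChar W α β P - nodeChar W α β (P - Q) * nodeChar W α β Q)
        + nodeChar W α β Q * (nodeChar W α β (P - Q) - 1) := by ring
  have hmain : v (nodeChar W α β Q * (nodeChar W α β (P - Q) - 1)) = ρ := by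
    rw [map_mul, nf.v_nodeChar hQ, one_mul]
  rw [e, Valuation.map_add_eq_of_lt_right v (by rw [hmain]; exact hD'), hmain, hρ]

/-- every point of `E1[p]` has its character near a `p`-th root of unity -/
theorem NodalNF.exists_root_near (nf : NodalNF v W α β) {p : ℕ} (hp : p.Prime)
    (hp0 : (p : K) ≠ 0) (ha₆ : v W.a₆ ≤ v (p : K)) {ζ : K} (hζ : IsPrimitiveRoot ζ p)
    {P : W.Point} (hP : InG1 v P) (hpP : p • P = 0) :
    ∃ μ ∈ nthRootsFinset p (1 : K), v (nodeChar W α β P - μ) ^ (p - 1) < v (p : K) := by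
  have hvp0 : v (p : K) ≠ 0 := (Valuation.ne_zero_iff v).mpr hp0
  have hvppos : 0 < v (p : K) := zero_lt_iff.mpr hvp0
  have hp1 : p - 1 ≠ 0 := by have := hp.two_le; omega
  by_cases hP0 : P = 0
  · refine ⟨1, ?_, ?_⟩
    · rw [mem_nthRootsFinset hp.pos]; exact one_pow p
    · rw [hP0, nodeChar_zero, sub_self, map_zero, zero_pow hp1]
      exact hvppos
  · by_contra hcon
    push Not at hcon
    have hρ := nf.v_nodeChar_sub_one_pow hp hp0 ha₆ hP hP0 hpP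
    set w := nodeChar W α β P with hw
    set ρ := v (w - 1) with hρdef
    have hρ1 : ρ < 1 := nf.v_nodeChar_sub_one_lt hP
    have hρ0 : ρ ≠ 0 := by
      intro h0
      rw [h0, zero_pow hp1] at hρ
      exact hvp0 hρ.symm
    have hρpos : 0 < ρ := zero_lt_iff.mpr hρ0
    have hle : ∀ μ ∈ nthRootsFinset p (1 : K), ρ ≤ v (w - μ) := by
      intro μ hμ
      have := hcon μ hμ
      rw [← hρ] at this
      exact le_of_pow_le_pow_left₀ hp1 zero_le this
    have hprod : w ^ p - 1 = ∏ μ ∈ nthRootsFinset p (1 : K), (w - μ) := by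
      have := congrArg (Polynomial.eval w) (X_pow_sub_one_eq_prod hp.pos hζ)
      simpa [Polynomial.eval_prod] using this
    have h1 := nf.v_nodeChar_pow_sub_one_le ha₆ hP hpP
    rw [← hw, hprod, map_prod, ← hρdef] at h1
    have h2 : ρ ^ p ≤ ∏ μ ∈ nthRootsFinset p (1 : K), v (w - μ) := by
      have := Finset.pow_card_le_prod (nthRootsFinset p (1 : K)) (fun μ => v (w - μ)) ρ hle
      rwa [hζ.card_nthRootsFinset] at this
    have h3 : v (p : K) * ρ ^ 2 < ρ ^ p := by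
      have hpow : ρ ^ p = ρ ^ (p - 1) * ρ := by
        rw [← pow_succ, Nat.sub_add_cancel hp.one_le]
      rw [hpow, hρ]
      have : ρ ^ 2 < ρ := by
        rw [pow_two]
        calc ρ * ρ < 1 * ρ := mul_lt_mul_of_pos_right hρ1 hρpos
          _ = ρ := one_mul _
      exact mul_lt_mul_of_pos_left this hvppos
    exact absurd (lt_of_le_of_lt (le_trans h2 h1) h3) (lt_irrefl _)

/-- **`#(E1 ∩ E[p]) ≤ p`** for a curve in nodal normal form with `v a₆ ≤ v p`. -/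
theorem NodalNF.card_kerRed_torsion_le (nf : NodalNF v W α β) {p : ℕ} (hp : p.Prime)
    (hp0 : (p : K) ≠ 0) (ha₆ : v W.a₆ ≤ v (p : K)) {ζ : K} (hζ : IsPrimitiveRoot ζ p) :
    Finite {P : W.Point // InG1 v P ∧ p • P = 0} ∧
      Nat.card {P : W.Point // InG1 v P ∧ p • P = 0} ≤ p := by
  classical
  have hp1 : p - 1 ≠ 0 := by have := hp.two_le; omega
  have hex : ∀ P : {P : W.Point // InG1 v P ∧ p • P = 0},
      ∃ μ : nthRootsFinset p (1 : K), v (nodeChar W α β P.1 - μ.1) ^ (p - 1) < v (p : K) := by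
    intro P
    obtain ⟨μ, hμ, h⟩ := nf.exists_root_near hp hp0 ha₆ hζ P.2.1 P.2.2
    exact ⟨⟨μ, hμ⟩, h⟩
  choose g hg using hex
  have hinj : Function.Injective g := by
    intro P Q hPQ
    by_contra hne
    have hne' : P.1 ≠ Q.1 := fun h => hne (Subtype.ext h)
    have hd := nf.v_nodeChar_sub_pow hp hp0 ha₆ P.2.1 Q.2.1 P.2.2 Q.2.2 hne'
    have h1 := hg P
    have h2 := hg Q
    rw [hPQ] at h1
    have e : nodeChar W α β P.1 - nodeChar W α β Q.1
        = (nodeChar W α β P.1 - (g Q).1) - (nodeChar W α β Q.1 - (g Q).1) := by ring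
    have h3 : v (nodeChar W α β P.1 - nodeChar W α β Q.1)
        ≤ max (v (nodeChar W α β P.1 - (g Q).1)) (v (nodeChar W α β Q.1 - (g Q).1)) := by
      rw [e]; exact Valuation.map_sub _ _ _
    have h4 : v (nodeChar W α β P.1 - nodeChar W α β Q.1) ^ (p - 1) < v (p : K) := by
      rcases le_max_iff.mp h3 with h | h
      · exact lt_of_le_of_lt (pow_le_pow_left₀ zero_le h _) h1
      · exact lt_of_le_of_lt (pow_le_pow_left₀ zero_le h _) h2
    rw [hd] at h4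
    exact lt_irrefl _ h4
  have hfin : Finite {P : W.Point // InG1 v P ∧ p • P = 0} := Finite.of_injective g hinj
  refine ⟨hfin, ?_⟩
  have := Nat.card_le_card_of_injective g hinj
  rwa [Nat.card_eq_finsetCard, hζ.card_nthRootsFinset] at this

end Count

end Fermat.Agent.MultRed
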