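/-
Lib/MultRed (architect helper4), MR5 piece V (helper78): inertia at `p` moves `μ_p`.

(V1) for an odd prime `p`, a place `A` of `ℚ̄` over `p` and a primitive `p`-th root of unity `ζ`,
some element of the inertia group of `A` moves `ζ`.  Consequently the mod-`p` cyclotomic exponent
of that element is not `1`.  (Corollary of helper31's `exists_inertia_inv_on_roots`.)
-/
import Fermat.Agent.MUL.Orig.S59.DefCond.StrictOrdArith
import Fermat.Agent.MUL.Orig.Lib.MultRed.SatLine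

set_option autoImplicit false

namespace Fermat.Agent.MultRed

open Fermat.Agent.S59.SOArith

/-- **(V1)** inertia at `p` moves every primitive `p`-th root of unity (`p` odd). -/
theorem exists_inertia_moving_root (p : ℕ) [Fact p.Prime] (hp2 : p ≠ 2)
    (A : ValuationSubring (AlgebraicClosure ℚ)) (hA : A.LiesOverPrime p)
    {ζ : AlgebraicClosure ℚ} (hζ : IsPrimitiveRoot ζ p) :
    ∃ σ ∈ A.inertiaSubgroupIn ℚ, σ ζ ≠ ζ := by
  have hp : p.Prime := Fact.out
  obtain ⟨σ₀, hσ₀, hinv⟩ := exists_inertia_inv_on_roots p A hA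
  refine ⟨σ₀, hσ₀, ?_⟩
  rw [hinv ζ hζ.pow_eq_one]
  intro h
  have hζ0 : ζ ≠ 0 := hζ.ne_zero hp.ne_zero
  have h2 : ζ ^ 2 = 1 := by
    rw [pow_two]
    nth_rewrite 1 [← h]
    exact inv_mul_cancel₀ hζ0
  have hdvd : p ∣ 2 := hζ.dvd_of_pow_eq_one 2 h2
  exact hp2 ((Nat.prime_dvd_prime_iff_eq hp Nat.prime_two).mp hdvd)

/-- **(V1')** there is `σ` in the inertia group at `A ∣ p` such that no cyclotomic exponent `a` of
`σ` on `μ_p` is `≡ 1 mod p`; in particular `σ` does not fix `μ_p` pointwise. -/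
theorem exists_inertia_cycExp_ne_one (p : ℕ) [Fact p.Prime] (hp2 : p ≠ 2)
    (A : ValuationSubring (AlgebraicClosure ℚ)) (hA : A.LiesOverPrime p) :
    ∃ σ ∈ A.inertiaSubgroupIn ℚ, ∀ a : ℕ,
      (∀ μ : AlgebraicClosure ℚ, μ ^ p ^ 1 = 1 → σ μ = μ ^ a) → ¬ (p : ℤ) ∣ (a : ℤ) - 1 := by
  obtain ⟨σ₀, hσ₀, hinv⟩ := exists_inertia_inv_on_roots p A hA
  exact ⟨σ₀, hσ₀, fun a ha => inv_exponent_ne_one p hp2 hinv ha⟩

end Fermat.Agent.MultRed
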