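import Mathlib
import Fermat.Agent.MUL.Lib.MultRed.NormalQbar

/-!
# Saturated lines in a free rank-2 module over a PID / DVR  (MR5-ALG)

* `Fermat.Agent.MultRed.exists_basis_of_saturated` (A1): a saturated submodule `L ≠ ⊥, ⊤` of a
  free module of rank 2 over a PID is `O ∙ b 0` for a basis `b`.
* `Fermat.Agent.MultRed.exists_scalars_of_stable` (A2): an endomorphism stabilising `L = O ∙ b 0`
  acts on `L` by a scalar `x`, on `V / L` by a scalar `z`, and `det f = x * z`.
* `Fermat.Agent.MultRed.quot_scalar_unique` (A3): the scalar `z` is unique.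
-/

namespace Fermat.Agent.MultRed

section Basis2

variable {O : Type*} [CommRing O] {V : Type*} [AddCommGroup V] [Module O V]

/-- A unimodular change of a basis indexed by `Fin 2`. -/
theorem exists_basis_of_unimodular (e : Module.Basis (Fin 2) O V) (a₀ a₁ r s : O)
    (h : r * a₀ + s * a₁ = 1) :
    ∃ b : Module.Basis (Fin 2) O V,
      b 0 = a₀ • e 0 + a₁ • e 1 ∧ b 1 = (-s) • e 0 + r • e 1 := by
  have hli : LinearIndependent O ![a₀ • e 0 + a₁ • e 1, (-s) • e 0 + r • e 1] := by
    rw [LinearIndependent.pair_iff]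
    intro u t hut
    have h1 : (u * a₀ - t * s) • e 0 + (u * a₁ + t * r) • e 1 = 0 := by
      rw [← hut]; module
    have h2 := congrArg e.repr h1
    have h30 := DFunLike.congr_fun h2 0
    have h31 := DFunLike.congr_fun h2 1
    simp at h30 h31
    constructor
    · linear_combination (-u) * h + r * h30 + s * h31
    · linear_combination (-t) * h - a₁ * h30 + a₀ * h31
  have hsp : ⊤ ≤ Submodule.span O (Set.range ![a₀ • e 0 + a₁ • e 1, (-s) • e 0 + r • e 1]) := by
    have hrange : Set.range ![a₀ • e 0 + a₁ • e 1, (-s) • e 0 + r • e 1]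
        = {a₀ • e 0 + a₁ • e 1, (-s) • e 0 + r • e 1} := by
      simp [Matrix.range_cons, Set.pair_comm]
    rw [hrange]
    have he0 : e 0 ∈ Submodule.span O {a₀ • e 0 + a₁ • e 1, (-s) • e 0 + r • e 1} := by
      rw [Submodule.mem_span_pair]
      refine ⟨r, -a₁, ?_⟩
      have : r • (a₀ • e 0 + a₁ • e 1) + (-a₁) • ((-s) • e 0 + r • e 1)
          = (r * a₀ + s * a₁) • e 0 := by module
      rw [this, h, one_smul]
    have he1 : e 1 ∈ Submodule.span O {a₀ • e 0 + a₁ • e 1, (-s) • e 0 + r • e 1} := by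
      rw [Submodule.mem_span_pair]
      refine ⟨s, a₀, ?_⟩
      have : s • (a₀ • e 0 + a₁ • e 1) + a₀ • ((-s) • e 0 + r • e 1)
          = (r * a₀ + s * a₁) • e 1 := by module
      rw [this, h, one_smul]
    rw [← e.span_eq]
    apply Submodule.span_le.2
    rintro _ ⟨i, rfl⟩
    fin_cases i
    · exact he0
    · exact he1
  refine ⟨Module.Basis.mk hli hsp, ?_, ?_⟩
  · simp [Module.Basis.mk_apply]
  · simp [Module.Basis.mk_apply]

end Basis2

section Saturated

variable {O : Type*} [CommRing O] [IsDomain O] [IsPrincipalIdealRing O]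
  {V : Type*} [AddCommGroup V] [Module O V]

/-- (A1), basis form: a proper nonzero saturated submodule of a module with a basis indexed by
`Fin 2` over a PID is spanned by the first vector of a suitable basis. -/
theorem exists_basis_of_saturated_of_basis (e : Module.Basis (Fin 2) O V) (L : Submodule O V)
    (hsat : ∀ a : O, a ≠ 0 → ∀ x : V, a • x ∈ L → x ∈ L) (hbot : L ≠ ⊥) (htop : L ≠ ⊤) :
    ∃ b : Module.Basis (Fin 2) O V, L = Submodule.span O {b 0} := by
  obtain ⟨w, hwL, hw0⟩ := (Submodule.ne_bot_iff L).1 hbot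
  -- coordinates of `w`
  have hw : w = e.repr w 0 • e 0 + e.repr w 1 • e 1 := by
    conv_lhs => rw [← e.sum_repr w]
    rw [Fin.sum_univ_two]
  set c₀ : O := e.repr w 0 with hc₀
  set c₁ : O := e.repr w 1 with hc₁
  obtain ⟨g, hg⟩ := (IsPrincipalIdealRing.principal (Ideal.span {c₀, c₁})).principal
  have hg' : Ideal.span {c₀, c₁} = Ideal.span {g} := hg
  have h0 : c₀ ∈ Ideal.span {g} := by
    rw [← hg']; exact Ideal.subset_span (by simp)
  have h1 : c₁ ∈ Ideal.span {g} := by
    rw [← hg']; exact Ideal.subset_span (by simp)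
  obtain ⟨a₀, ha₀⟩ := Ideal.mem_span_singleton'.1 h0
  obtain ⟨a₁, ha₁⟩ := Ideal.mem_span_singleton'.1 h1
  have hgm : g ∈ Ideal.span {c₀, c₁} := by
    rw [hg']; exact Ideal.subset_span (by simp)
  obtain ⟨r, s, hrs⟩ := Ideal.mem_span_pair.1 hgm
  have hg0 : g ≠ 0 := by
    rintro rfl
    apply hw0
    rw [hw, ← ha₀, ← ha₁]
    simp
  have hone : r * a₀ + s * a₁ = 1 := by
    have : g * (r * a₀ + s * a₁) = g * 1 := by
      rw [mul_one]
      conv_rhs => rw [← hrs, ← ha₀, ← ha₁]
      ring
    exact mul_left_cancel₀ hg0 this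
  obtain ⟨b, hb0, hb1⟩ := exists_basis_of_unimodular e a₀ a₁ r s hone
  have hb0L : b 0 ∈ L := by
    apply hsat g hg0
    have : g • b 0 = w := by
      rw [hb0, hw, ← ha₀, ← ha₁]; module
    rw [this]; exact hwL
  refine ⟨b, le_antisymm ?_ ?_⟩
  · intro x hx
    obtain ⟨u, t, hx'⟩ : ∃ u t : O, x = u • b 0 + t • b 1 := by
      refine ⟨b.repr x 0, b.repr x 1, ?_⟩
      conv_lhs => rw [← b.sum_repr x]
      rw [Fin.sum_univ_two]
    have ht : t = 0 := by
      by_contra ht
      apply htop
      have hb1L : b 1 ∈ L := by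
        apply hsat _ ht
        have : t • b 1 = x - u • b 0 := by
          rw [hx']
          abel
        rw [this]
        exact L.sub_mem hx (L.smul_mem _ hb0L)
      rw [eq_top_iff, ← b.span_eq]
      apply Submodule.span_le.2
      rintro _ ⟨i, rfl⟩
      fin_cases i
      · exact hb0L
      · exact hb1L
    rw [hx', ht, zero_smul, add_zero]
    exact Submodule.smul_mem _ _ (Submodule.mem_span_singleton_self _)
  · rw [Submodule.span_le, Set.singleton_subset_iff]
    exact hb0L

/-- (A1): a proper nonzero saturated submodule of a free module of rank 2 over a PID is spanned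
by the first vector of a suitable basis. -/
theorem exists_basis_of_saturated [Module.Free O V] [Module.Finite O V]
    (hrank : Module.finrank O V = 2) (L : Submodule O V)
    (hsat : ∀ a : O, a ≠ 0 → ∀ x : V, a • x ∈ L → x ∈ L) (hbot : L ≠ ⊥) (htop : L ≠ ⊤) :
    ∃ b : Module.Basis (Fin 2) O V, L = Submodule.span O {b 0} :=
  exists_basis_of_saturated_of_basis (Module.finBasisOfFinrankEq O V hrank) L hsat hbot htop

end Saturated

section DVR

variable {O : Type*} [CommRing O] [IsDomain O] [IsDiscreteValuationRing O]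
  {V : Type*} [AddCommGroup V] [Module O V]

/-- Over a DVR, saturation with respect to a uniformizer implies saturation with respect to
every nonzero scalar. -/
theorem saturated_of_irreducible {ϖ : O} (hϖ : Irreducible ϖ) (L : Submodule O V)
    (hsat : ∀ x : V, ϖ • x ∈ L → x ∈ L) :
    ∀ a : O, a ≠ 0 → ∀ x : V, a • x ∈ L → x ∈ L := by
  intro a ha x hx
  obtain ⟨n, u, rfl⟩ := IsDiscreteValuationRing.eq_unit_mul_pow_irreducible ha hϖ
  have hpow : ∀ (n : ℕ) (y : V), ϖ ^ n • y ∈ L → y ∈ L := by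
    intro n
    induction n with
    | zero => intro y hy; simpa using hy
    | succ n ih =>
      intro y hy
      apply ih
      apply hsat
      rwa [smul_smul, ← pow_succ']
  apply hpow n
  have : ϖ ^ n • x = ((u⁻¹ : Oˣ) : O) • ((u : O) * ϖ ^ n) • x := by
    rw [smul_smul, ← mul_assoc, Units.inv_mul, one_mul]
  rw [this]
  exact L.smul_mem _ hx

/-- (A1) over a DVR, saturation tested on a uniformizer only. -/
theorem exists_basis_of_saturated_dvr [Module.Free O V] [Module.Finite O V]
    (hrank : Module.finrank O V = 2) {ϖ : O} (hϖ : Irreducible ϖ) (L : Submodule O V)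
    (hsat : ∀ x : V, ϖ • x ∈ L → x ∈ L) (hbot : L ≠ ⊥) (htop : L ≠ ⊤) :
    ∃ b : Module.Basis (Fin 2) O V, L = Submodule.span O {b 0} :=
  exists_basis_of_saturated hrank L (saturated_of_irreducible hϖ L hsat) hbot htop

end DVR

section Padic

variable (p : ℕ) [Fact p.Prime] {V : Type*} [AddCommGroup V] [Module ℤ_[p] V]

/-- (A1) over `ℤ_[p]`, saturation tested on `p` only. -/
theorem exists_basis_of_saturated_padic [Module.Free ℤ_[p] V] [Module.Finite ℤ_[p] V]
    (hrank : Module.finrank ℤ_[p] V = 2) (L : Submodule ℤ_[p] V)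
    (hsat : ∀ x : V, (p : ℤ_[p]) • x ∈ L → x ∈ L) (hbot : L ≠ ⊥) (htop : L ≠ ⊤) :
    ∃ b : Module.Basis (Fin 2) ℤ_[p] V, L = Submodule.span ℤ_[p] {b 0} :=
  exists_basis_of_saturated_dvr hrank (PadicInt.irreducible_p (p := p)) L hsat hbot htop

end Padic

section Stable

variable {O : Type*} [CommRing O] {V : Type*} [AddCommGroup V] [Module O V]

/-- (A2): an endomorphism stabilising the line `L = O ∙ b 0` acts on `L` by a scalar `x`, on
`V / L` by a scalar `z`, and its determinant is `x * z`. -/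
theorem exists_scalars_of_stable (b : Module.Basis (Fin 2) O V) (L : Submodule O V)
    (hL : L = Submodule.span O {b 0}) (f : V →ₗ[O] V) (hf : ∀ w ∈ L, f w ∈ L) :
    ∃ x z : O, (∀ w ∈ L, f w = x • w) ∧ (∀ v : V, f v - z • v ∈ L) ∧
      LinearMap.det f = x * z := by
  have hb0L : b 0 ∈ L := by rw [hL]; exact Submodule.mem_span_singleton_self _
  have hfb0 : f (b 0) ∈ Submodule.span O {b 0} := by rw [← hL]; exact hf _ hb0L
  obtain ⟨x, hx⟩ := Submodule.mem_span_singleton.1 hfb0
  obtain ⟨y, z, hyz⟩ : ∃ y z : O, f (b 1) = y • b 0 + z • b 1 := by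
    refine ⟨b.repr (f (b 1)) 0, b.repr (f (b 1)) 1, ?_⟩
    conv_lhs => rw [← b.sum_repr (f (b 1))]
    rw [Fin.sum_univ_two]
  refine ⟨x, z, ?_, ?_, ?_⟩
  · intro w hw
    rw [hL] at hw
    obtain ⟨c, rfl⟩ := Submodule.mem_span_singleton.1 hw
    rw [map_smul, ← hx, smul_comm]
  · intro v
    obtain ⟨u, t, hv⟩ : ∃ u t : O, v = u • b 0 + t • b 1 := by
      refine ⟨b.repr v 0, b.repr v 1, ?_⟩
      conv_lhs => rw [← b.sum_repr v]
      rw [Fin.sum_univ_two]
    have : f v - z • v = (u * x + t * y - z * u) • b 0 := by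
      rw [hv, map_add, map_smul, map_smul, ← hx, hyz]
      module
    rw [this]
    exact L.smul_mem _ hb0L
  · rw [← LinearMap.det_toMatrix b, Matrix.det_fin_two]
    have h00 : LinearMap.toMatrix b b f 0 0 = x := by
      rw [LinearMap.toMatrix_apply, ← hx]; simp
    have h10 : LinearMap.toMatrix b b f 1 0 = 0 := by
      rw [LinearMap.toMatrix_apply, ← hx]; simp
    have h11 : LinearMap.toMatrix b b f 1 1 = z := by
      rw [LinearMap.toMatrix_apply, hyz]; simp
    rw [h00, h10, h11]; ring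

/-- (A3): the scalar by which `f` acts on `V / L` is unique (`L = O ∙ b 0`). -/
theorem quot_scalar_unique (b : Module.Basis (Fin 2) O V) (L : Submodule O V)
    (hL : L = Submodule.span O {b 0}) (f : V →ₗ[O] V) (z ε : O)
    (hz : ∀ v : V, f v - z • v ∈ L) (hε : ∀ v : V, f v - ε • v ∈ L) : z = ε := by
  have h1 : (ε - z) • b 1 ∈ Submodule.span O {b 0} := by
    rw [← hL]
    have : (ε - z) • b 1 = (f (b 1) - z • b 1) - (f (b 1) - ε • b 1) := by
      rw [sub_smul]; abel
    rw [this]
    exact L.sub_mem (hz _) (hε _)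
  obtain ⟨c, hc⟩ := Submodule.mem_span_singleton.1 h1
  have h2 := congrArg (fun v => b.repr v 1) hc
  simp at h2
  exact (sub_eq_zero.1 h2.symm).symm

/-- The scalar by which `f` acts on `L = O ∙ b 0` is unique. -/
theorem line_scalar_unique (b : Module.Basis (Fin 2) O V) (L : Submodule O V)
    (hL : L = Submodule.span O {b 0}) (f : V →ₗ[O] V) (x x' : O)
    (hx : ∀ w ∈ L, f w = x • w) (hx' : ∀ w ∈ L, f w = x' • w) : x = x' := by
  have hb0L : b 0 ∈ L := by rw [hL]; exact Submodule.mem_span_singleton_self _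
  have h := (hx _ hb0L).symm.trans (hx' _ hb0L)
  have h2 := congrArg (fun v => b.repr v 0) h
  simpa using h2

/-- (A2)+(A3) combined: if `f` stabilises `L = O ∙ b 0` and acts on `V / L` by `ε`, then `f`
acts on `L` by a scalar `x` with `det f = x * ε`. -/
theorem exists_scalar_of_stable_of_quot (b : Module.Basis (Fin 2) O V) (L : Submodule O V)
    (hL : L = Submodule.span O {b 0}) (f : V →ₗ[O] V) (hf : ∀ w ∈ L, f w ∈ L) (ε : O)
    (hε : ∀ v : V, f v - ε • v ∈ L) :
    ∃ x : O, (∀ w ∈ L, f w = x • w) ∧ LinearMap.det f = x * ε := by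
  obtain ⟨x, z, hx, hz, hdet⟩ := exists_scalars_of_stable b L hL f hf
  have hzε : z = ε := quot_scalar_unique b L hL f z ε hz hε
  exact ⟨x, hx, by rw [hdet, hzε]⟩

/-- If `z² = 1` and `x z ≡ a` modulo `I`, then `x ≡ a z` modulo `I` (the last clause of
`GaloisRepAdic.IsStrictOrdinaryAt` from `det = x z ≡ a` and `z = ±1`). -/
theorem sub_mul_mem_of_sq_eq_one (I : Ideal O) (x z a : O) (hz : z * z = 1)
    (h : x * z - a ∈ I) : x - a * z ∈ I := by
  have : x - a * z = z * (x * z - a) := by
    have : z * (x * z - a) = x * (z * z) - a * z := by ring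
    rw [this, hz, mul_one]
  rw [this]
  exact I.mul_mem_left _ h

/-- (A2)+(A3) in the exact shape of the last clause of `GaloisRepAdic.IsStrictOrdinaryAt`:
if `f` stabilises `L = O ∙ b 0`, acts on `V / L` by `ε` with `ε² = 1`, and `det f ≡ a` modulo
`I`, then there are `x z` with `f = x` on `L`, `f ≡ z` on `V / L` and `x - a z ∈ I`. -/
theorem exists_scalars_strictOrd (b : Module.Basis (Fin 2) O V) (L : Submodule O V)
    (hL : L = Submodule.span O {b 0}) (f : V →ₗ[O] V) (hf : ∀ w ∈ L, f w ∈ L) (ε : O)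
    (hε2 : ε * ε = 1) (hε : ∀ v : V, f v - ε • v ∈ L) :
    ∃ x z : O, (∀ w ∈ L, f w = x • w) ∧ (∀ v : V, f v - z • v ∈ L) ∧
      ∀ (I : Ideal O) (a : O), LinearMap.det f - a ∈ I → x - a * z ∈ I := by
  obtain ⟨x, hx, hdet⟩ := exists_scalar_of_stable_of_quot b L hL f hf ε hε
  refine ⟨x, ε, hx, hε, fun I a ha => ?_⟩
  rw [hdet] at ha
  exact sub_mul_mem_of_sq_eq_one I x ε a hε2 ha

end Stable

end Fermat.Agent.MultRed
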